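/-
S55lib / GlobDual / Kummer  (helper7)

Block (V), link (V1): Kummer extensions by `p`-th roots of `S`-units are unramified outside `S`
when `p ∈ S`.  Consequences: `ℚ_S` contains `μ_p`, and the group `E_S` of `S`-units of `ℚ_S` is
`p`-divisible.  Everything is phrased in the Prelude's language
(`ValuationSubring (AlgebraicClosure ℚ)`, `LiesOverPrime`, `inertiaSubgroupIn`,
`IntermediateField.IsUnramifiedOutside`).
-/
import Fermat.Prelude.Def_GroupCohomology_ContinuousUnramified
import Fermat.Agent.S05lib.InertiaFacts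

set_option autoImplicit false

noncomputable section

namespace Fermat.Agent.S55lib.GlobDual

open IntermediateField

local notation "Qb" => AlgebraicClosure ℚ
local notation "GQ" => (AlgebraicClosure ℚ ≃ₐ[ℚ] AlgebraicClosure ℚ)

/-- a root of unity is a unit of every valuation subring -/
theorem valuation_eq_one_of_pow_eq_one (A : ValuationSubring Qb) {r : Qb} {m : ℕ} (hm : m ≠ 0)
    (hr : r ^ m = 1) : A.valuation r = 1 := by
  have h := congrArg A.valuation hr
  rw [map_pow, map_one] at h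
  rcases lt_trichotomy (A.valuation r) 1 with hlt | heq | hgt
  · exact absurd h (pow_lt_one' hlt hm).ne
  · exact heq
  · exact absurd h (one_lt_pow' hgt hm).ne'

/-- if two distinct primes were both non-units of `A` then `1` would be a non-unit -/
theorem valuation_natCast_eq_one_of_liesOver (A : ValuationSubring Qb) {q p : ℕ}
    (hq : q.Prime) (hp : p.Prime) (hqp : q ≠ p) (hA : A.LiesOverPrime q) :
    A.valuation (p : Qb) = 1 := by
  have hle : A.valuation (p : Qb) ≤ 1 := by
    rw [A.valuation_le_one_iff]; exact natCast_mem A p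
  rcases lt_or_eq_of_le hle with hlt | heq
  swap
  · exact heq
  exfalso
  have hqlt : A.valuation (q : Qb) < 1 := A.mem_nonunits_iff.mp hA
  have hcop : Nat.Coprime q p := (Nat.coprime_primes hq hp).mpr hqp
  -- Bezout: a * q + b * p = 1 in ℤ
  have hgcd := Int.gcd_eq_gcd_ab (q : ℤ) (p : ℤ)
  have hg1 : (Int.gcd (q : ℤ) (p : ℤ) : ℤ) = 1 := by
    have : Int.gcd (q : ℤ) (p : ℤ) = Nat.gcd q p := Int.gcd_natCast_natCast q p
    rw [this, hcop]; rfl
  rw [hg1] at hgcd
  have hcast : (1 : Qb) = (q : Qb) * ((Int.gcdA q p : ℤ) : Qb) + (p : Qb) * ((Int.gcdB q p : ℤ) : Qb) := by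
    have := congrArg (fun z : ℤ => (z : Qb)) hgcd
    simpa using this
  have hint : ∀ z : ℤ, A.valuation ((z : ℤ) : Qb) ≤ 1 := fun z => by
    rw [A.valuation_le_one_iff]; exact intCast_mem A z
  have h1 : A.valuation ((q : Qb) * ((Int.gcdA q p : ℤ) : Qb)) < 1 := by
    rw [map_mul]
    calc A.valuation (q : Qb) * A.valuation ((Int.gcdA q p : ℤ) : Qb)
        ≤ A.valuation (q : Qb) * 1 := mul_le_mul' le_rfl (hint _)
      _ = A.valuation (q : Qb) := mul_one _
      _ < 1 := hqlt
  have h2 : A.valuation ((p : Qb) * ((Int.gcdB q p : ℤ) : Qb)) < 1 := by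
    rw [map_mul]
    calc A.valuation (p : Qb) * A.valuation ((Int.gcdB q p : ℤ) : Qb)
        ≤ A.valuation (p : Qb) * 1 := mul_le_mul' le_rfl (hint _)
      _ = A.valuation (p : Qb) := mul_one _
      _ < 1 := hlt
  have h3 : A.valuation (1 : Qb) < 1 := by
    rw [hcast]
    exact lt_of_le_of_lt (A.valuation.map_add _ _) (max_lt h1 h2)
  rw [map_one] at h3
  exact lt_irrefl _ h3

/-- **Kummer, local form.**  Let `A` lie over a prime `q ≠ p`, `σ` in the inertia group of `A`,
`α` a unit of `A` with `σ (α ^ p) = α ^ p`.  Then `σ α = α`. -/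
theorem inertia_fixes_of_pow_fixed (A : ValuationSubring Qb) {q p : ℕ}
    (hq : q.Prime) (hp : p.Prime) (hqp : q ≠ p) (hA : A.LiesOverPrime q)
    {σ : GQ} (hσ : σ ∈ A.inertiaSubgroupIn ℚ) {α : Qb} (hα : A.valuation α = 1)
    (hfix : σ (α ^ p) = α ^ p) : σ α = α := by
  have hα0 : α ≠ 0 := by
    rintro rfl
    rw [map_zero] at hα
    exact zero_ne_one hα
  obtain ⟨-, hres⟩ := Fermat.Agent.S05lib.inertia_facts A σ hσ
  have hlt : A.valuation (σ α - α) < 1 := hres α hα.le
  set ζ : Qb := σ α / α with hζ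
  have hζp : ζ ^ p = 1 := by
    rw [hζ, div_pow, ← map_pow, hfix, div_self (pow_ne_zero _ hα0)]
  have hζ1 : A.valuation (ζ - 1) < 1 := by
    have : ζ - 1 = (σ α - α) / α := by
      rw [hζ]; field_simp
    rw [this, map_div₀, hα, div_one]
    exact hlt
  by_contra hne
  have hζne : ζ ≠ 1 := by
    intro h
    apply hne
    rw [hζ, div_eq_one_iff_eq hα0] at h
    exact h
  -- geometric sum vanishes
  have hgeom : ∑ k ∈ Finset.range p, ζ ^ k = 0 := by
    have h := mul_geom_sum ζ p
    rw [hζp, sub_self] at h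
    rcases mul_eq_zero.mp h with h | h
    · exact absurd (sub_eq_zero.mp h) hζne
    · exact h
  -- hence `p = ∑ (1 - ζ^k)` is a non-unit
  have hpsum : (p : Qb) = ∑ k ∈ Finset.range p, (1 - ζ ^ k) := by
    rw [Finset.sum_sub_distrib, hgeom, sub_zero]
    simp
  have hterm : ∀ k : ℕ, A.valuation (1 - ζ ^ k) < 1 := by
    intro k
    have hζv : A.valuation ζ = 1 := valuation_eq_one_of_pow_eq_one A hp.ne_zero hζp
    have hdiv : (1 - ζ ^ k) = -((ζ - 1) * ∑ i ∈ Finset.range k, ζ ^ i) := by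
      rw [mul_geom_sum]; ring
    rw [hdiv, Valuation.map_neg, map_mul]
    have hsum : A.valuation (∑ i ∈ Finset.range k, ζ ^ i) ≤ 1 := by
      apply A.valuation.map_sum_le
      intro i _
      rw [map_pow, hζv, one_pow]
    calc A.valuation (ζ - 1) * A.valuation (∑ i ∈ Finset.range k, ζ ^ i)
        ≤ A.valuation (ζ - 1) * 1 := mul_le_mul' le_rfl hsum
      _ = A.valuation (ζ - 1) := mul_one _
      _ < 1 := hζ1
  have hplt : A.valuation (p : Qb) < 1 := by
    rw [hpsum]
    apply A.valuation.map_sum_lt one_ne_zero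
    intro k _
    exact hterm k
  have := valuation_natCast_eq_one_of_liesOver A hq hp hqp hA
  rw [this] at hplt
  exact lt_irrefl _ hplt

/-- `x` is a unit of every valuation subring lying over a prime outside `S` -/
def IsUnitOutside (S : Finset Nat.Primes) (x : Qb) : Prop :=
  ∀ q : Nat.Primes, q ∉ S → ∀ A : ValuationSubring Qb, A.LiesOverPrime (q : ℕ) →
    A.valuation x = 1

theorem IsUnitOutside.one (S : Finset Nat.Primes) : IsUnitOutside S (1 : Qb) :=
  fun _ _ _ _ => map_one _

theorem IsUnitOutside.mul {S : Finset Nat.Primes} {x y : Qb} (hx : IsUnitOutside S x)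
    (hy : IsUnitOutside S y) : IsUnitOutside S (x * y) := fun q hq A hA => by
  rw [map_mul, hx q hq A hA, hy q hq A hA, one_mul]

theorem IsUnitOutside.inv {S : Finset Nat.Primes} {x : Qb} (hx : IsUnitOutside S x) :
    IsUnitOutside S x⁻¹ := fun q hq A hA => by
  rw [map_inv₀, hx q hq A hA, inv_one]

theorem IsUnitOutside.pow {S : Finset Nat.Primes} {x : Qb} (hx : IsUnitOutside S x) (n : ℕ) :
    IsUnitOutside S (x ^ n) := fun q hq A hA => by
  rw [map_pow, hx q hq A hA, one_pow]

/-- a `p`-th root of a unit outside `S` is a unit outside `S` -/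
theorem IsUnitOutside.of_pow {S : Finset Nat.Primes} {x : Qb} {n : ℕ} (hn : n ≠ 0)
    (hx : IsUnitOutside S (x ^ n)) : IsUnitOutside S x := fun q hq A hA => by
  have h := hx q hq A hA
  rw [map_pow] at h
  rcases lt_trichotomy (A.valuation x) 1 with hlt | heq | hgt
  · exact absurd h (pow_lt_one' hlt hn).ne
  · exact heq
  · exact absurd h (one_lt_pow' hgt hn).ne'

/-- `A.valuation y = 1` iff `y` is a nonzero element of `A` whose inverse lies in `A` -/
theorem valuation_eq_one_iff_mem (B : ValuationSubring Qb) (y : Qb) :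
    B.valuation y = 1 ↔ (y ≠ 0 ∧ y ∈ B ∧ y⁻¹ ∈ B) := by
  constructor
  · intro hy
    refine ⟨?_, (B.valuation_le_one_iff _).mp hy.le, (B.valuation_le_one_iff _).mp ?_⟩
    · rintro rfl
      rw [map_zero] at hy
      exact zero_ne_one hy
    · rw [map_inv₀, hy, inv_one]
  · rintro ⟨h0, h1, h2⟩
    have a1 := (B.valuation_le_one_iff _).mpr h1
    have a2 := (B.valuation_le_one_iff _).mpr h2
    rw [map_inv₀] at a2
    have hpos : 0 < B.valuation y := zero_lt_iff.mpr ((map_ne_zero _).mpr h0)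
    exact le_antisymm a1 ((inv_le_one₀ hpos).mp a2)

/-- the Galois group preserves `IsUnitOutside` -/
theorem IsUnitOutside.map {S : Finset Nat.Primes} {x : Qb} (hx : IsUnitOutside S x) (σ : GQ) :
    IsUnitOutside S (σ x) := fun q hq A hA => by
  -- transport `A` along `σ`
  have hB : (A.comap (σ : Qb →+* Qb)).LiesOverPrime (q : ℕ) := by
    unfold ValuationSubring.LiesOverPrime at hA ⊢
    rw [ValuationSubring.mem_nonunits_iff_or] at hA ⊢
    rcases hA with h0 | h1
    · exact Or.inl h0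
    · right
      intro hmem
      apply h1
      have : (σ : Qb →+* Qb) ((((q : ℕ) : Qb))⁻¹) ∈ A := hmem
      simpa using this
  have h := hx q hq (A.comap (σ : Qb →+* Qb)) hB
  rw [valuation_eq_one_iff_mem] at h ⊢
  obtain ⟨h0, h1, h2⟩ := h
  refine ⟨(map_ne_zero _).mpr h0, h1, ?_⟩
  have : (σ : Qb →+* Qb) x⁻¹ ∈ A := h2
  simpa using this

variable {S : Finset Nat.Primes} {p : ℕ}

/-- **Kummer, global form.**  If `F` is unramified outside `S`, `p ∈ S` is prime, and `α ^ p ∈ F`
is a unit outside `S`, then `F(α)` is unramified outside `S`. -/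
theorem isUnramifiedOutside_adjoin_root (hp : p.Prime) (hpS : (⟨p, hp⟩ : Nat.Primes) ∈ S)
    {F : IntermediateField ℚ Qb} (hF : F.IsUnramifiedOutside S) {α : Qb}
    (hαF : α ^ p ∈ F) (hαu : IsUnitOutside S (α ^ p)) :
    (F ⊔ ℚ⟮α⟯).IsUnramifiedOutside S := by
  have := hF.1
  have halg : IsIntegral ℚ α := (AlgebraicClosure.isAlgebraic ℚ).isIntegral.isIntegral α
  have : FiniteDimensional ℚ ℚ⟮α⟯ := IntermediateField.adjoin.finiteDimensional halg
  refine ⟨IntermediateField.finiteDimensional_sup F ℚ⟮α⟯, fun q hq A hA σ hσ => ?_⟩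
  rw [IntermediateField.fixingSubgroup_sup]
  refine Subgroup.mem_inf.mpr ⟨hF.2 q hq A hA hσ, ?_⟩
  have hqp : (q : ℕ) ≠ p := by
    rintro h
    apply hq
    have : q = ⟨p, hp⟩ := Subtype.ext h
    rw [this]; exact hpS
  have hfixF : σ (α ^ p) = α ^ p := by
    have h := hF.2 q hq A hA hσ
    rw [IntermediateField.mem_fixingSubgroup_iff] at h
    exact h _ hαF
  have hfix : σ α = α :=
    inertia_fixes_of_pow_fixed A q.2 hp hqp hA hσ
      ((hαu.of_pow hp.ne_zero) q hq A hA) hfixF
  rw [IntermediateField.mem_fixingSubgroup_iff]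
  intro x hx
  have hle : ℚ⟮α⟯ ≤ IntermediateField.fixedField (Subgroup.zpowers σ) := by
    rw [IntermediateField.adjoin_le_iff]
    rintro y hy
    rw [Set.mem_singleton_iff] at hy
    subst hy
    rintro ⟨τ, hτ⟩
    obtain ⟨k, rfl⟩ := Subgroup.mem_zpowers_iff.mp hτ
    show (σ ^ k) y = y
    have h1 : σ ∈ MulAction.stabilizer GQ y := MulAction.mem_stabilizer_iff.mpr hfix
    exact MulAction.mem_stabilizer_iff.mp (Subgroup.zpow_mem _ h1 k)
  exact hle hx ⟨σ, Subgroup.mem_zpowers σ⟩

/-- **Kummer, global form with divisor condition.**  If `F` is unramified outside `S`, `p ∈ S`,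
`α ^ p ∈ F`, and at every valuation subring `A` over a prime `q ∉ S` the element `α` is a unit up
to a power of `q` (i.e. the divisor of `α ^ p` outside `S` is a `p`-th power, `F` being unramified
there), then `F(α)` is unramified outside `S`.  This is the capitulation lemma: an ideal whose
`p`-th power is principal (outside `S`) becomes principal in an extension inside `ℚ_S`. -/
theorem isUnramifiedOutside_adjoin_root_of_div (hp : p.Prime) (hpS : (⟨p, hp⟩ : Nat.Primes) ∈ S)
    {F : IntermediateField ℚ Qb} (hF : F.IsUnramifiedOutside S) {α : Qb}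
    (hαF : α ^ p ∈ F)
    (hdiv : ∀ q : Nat.Primes, q ∉ S → ∀ A : ValuationSubring Qb, A.LiesOverPrime (q : ℕ) →
      ∃ m : ℤ, A.valuation (α * ((q : ℕ) : Qb) ^ m) = 1) :
    (F ⊔ ℚ⟮α⟯).IsUnramifiedOutside S := by
  have := hF.1
  have halg : IsIntegral ℚ α := (AlgebraicClosure.isAlgebraic ℚ).isIntegral.isIntegral α
  have : FiniteDimensional ℚ ℚ⟮α⟯ := IntermediateField.adjoin.finiteDimensional halg
  refine ⟨IntermediateField.finiteDimensional_sup F ℚ⟮α⟯, fun q hq A hA σ hσ => ?_⟩
  rw [IntermediateField.fixingSubgroup_sup]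
  refine Subgroup.mem_inf.mpr ⟨hF.2 q hq A hA hσ, ?_⟩
  have hqp : (q : ℕ) ≠ p := by
    rintro h
    apply hq
    have : q = ⟨p, hp⟩ := Subtype.ext h
    rw [this]; exact hpS
  obtain ⟨m, hm⟩ := hdiv q hq A hA
  have hq0 : (((q : ℕ) : Qb)) ≠ 0 := by
    have := q.2.ne_zero
    exact_mod_cast this
  have hσq : ∀ k : ℤ, σ ((((q : ℕ) : Qb)) ^ k) = (((q : ℕ) : Qb)) ^ k := by
    intro k
    rw [map_zpow₀, map_natCast]
  have hfixF : σ ((α * ((q : ℕ) : Qb) ^ m) ^ p) = (α * ((q : ℕ) : Qb) ^ m) ^ p := by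
    have h := hF.2 q hq A hA hσ
    rw [IntermediateField.mem_fixingSubgroup_iff] at h
    rw [mul_pow, map_mul, h _ hαF, map_pow, hσq]
  have hfix' : σ (α * ((q : ℕ) : Qb) ^ m) = α * ((q : ℕ) : Qb) ^ m :=
    inertia_fixes_of_pow_fixed A q.2 hp hqp hA hσ hm hfixF
  have hfix : σ α = α := by
    rw [map_mul, hσq] at hfix'
    exact mul_right_cancel₀ (zpow_ne_zero m hq0) hfix'
  rw [IntermediateField.mem_fixingSubgroup_iff]
  intro x hx
  have hle : ℚ⟮α⟯ ≤ IntermediateField.fixedField (Subgroup.zpowers σ) := by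
    rw [IntermediateField.adjoin_le_iff]
    rintro y hy
    rw [Set.mem_singleton_iff] at hy
    subst hy
    rintro ⟨τ, hτ⟩
    obtain ⟨k, rfl⟩ := Subgroup.mem_zpowers_iff.mp hτ
    show (σ ^ k) y = y
    have h1 : σ ∈ MulAction.stabilizer GQ y := MulAction.mem_stabilizer_iff.mpr hfix
    exact MulAction.mem_stabilizer_iff.mp (Subgroup.zpow_mem _ h1 k)
  exact hle hx ⟨σ, Subgroup.mem_zpowers σ⟩

end Fermat.Agent.S55lib.GlobDual
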