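/-
S55lib / GlobDual / JSCoind  (helper7).

`J_S` (helper4's `JSrep S`) is the smooth coinduction of the local multiplicative modules
`Y_q = (ℚ̄_q)ˣ` along `r_q : G_q → G_ℚ`, `q ∈ S` (`jsCoind S : SmCoind …`).  Consequences
(`Cpx/Shapiro`, `Cpx/ShapiroExt`): Shapiro isomorphisms for `H⁰, H¹` of `J_S`, injectivity on `H²`, and
the same for `Ext^i(P•, J_S)`.
-/
import Fermat.Agent.S55lib.Cpx.Level
import Fermat.Agent.S55lib.Cpx.ShapiroExt
import Fermat.Agent.S55lib.Iface.Modules
import Fermat.Agent.S55lib.Iface.Top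

set_option autoImplicit false

noncomputable section

namespace Fermat.Agent.S55lib

open groupCohomology ExtCitation

variable (S : Finset Nat.Primes)

/-- the topology of `G_S` on `G_ℚ` -/
abbrev basisS : OpenBasis GQ := OpenBasis.ofLevel (MonoidHom.id GQ) (LevelClass.unr S)

/-- the (full) topology of the local Galois group `G_q` -/
abbrev basisLoc (q : Nat.Primes) : OpenBasis (Gloc q) := OpenBasis.ofLevel (rloc q) LevelClass.all

/-- the Prelude's local Galois group is `Gal(ℚ̄_q/ℚ_q)` -/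
def glocEquiv (q : Nat.Primes) : Gloc q ≃* GalQq (q : ℕ) := MulEquiv.refl _

lemma rloc_eq (q : Nat.Primes) (d : Gloc q) :
    rloc q d = localGaloisToGlobal (q : ℕ) (glocEquiv q d) := rfl

/-- the local multiplicative module `(ℚ̄_q)ˣ` -/
def Yloc (q : Nat.Primes) : Rep.{0} ℤ (Gloc q) :=
  (Rep.ofAlgebraAutOnUnits ℚ_[(q : ℕ)] (PadicAlgCl (q : ℕ)) : Rep.{0} ℤ (GalQq (q : ℕ)))

lemma Yloc_ρ_apply (q : Nat.Primes) (d : Gloc q) (u : Additive (PadicAlgCl (q : ℕ))ˣ) :
    (Yloc q).ρ d u = Additive.ofMul (Units.map ((glocEquiv q d : GalQq (q : ℕ)) :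
      PadicAlgCl (q : ℕ) →* PadicAlgCl (q : ℕ)) (Additive.toMul u)) := rfl

/-- evaluation at `1` on the `q`-component of `J_S` -/
def jsEval (q : S) : JS S →* (PadicAlgCl (q.1 : ℕ))ˣ :=
  (Pi.evalMonoidHom (fun _ : GQ => (PadicAlgCl (q.1 : ℕ))ˣ) 1).comp
    ((JSq S q.1).subtype.comp (JS.comp S q))

lemma jsEval_apply (q : S) (f : JS S) : jsEval S q f = (JS.comp S q f).1 1 := rfl

lemma jsEval_smul (q : S) (g : GQ) (f : JS S) : jsEval S q (g • f) = (JS.comp S q f).1 g := by
  rw [jsEval_apply, JS.comp_smul, JSq.smul_apply, one_mul]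

/-- the evaluation maps `res J_S → Y_q` -/
def jsEv (q : S) : Rep.res (rloc q.1) (JSrep S) ⟶ Yloc q.1 :=
  Rep.ofHom
    { toLinearMap := (MonoidHom.toAdditive (jsEval S q)).toIntLinearMap
      isIntertwining' := by
        intro d
        apply LinearMap.ext
        intro (f : Additive (JS S))
        show Additive.ofMul (jsEval S q (rloc q.1 d • (Additive.toMul f : JS S))) =
          (Yloc q.1).ρ d (Additive.ofMul (jsEval S q (Additive.toMul f : JS S)))
        rw [jsEval_smul, Yloc_ρ_apply]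
        congr 1
        ext
        have := (JS.comp S q (Additive.toMul f : JS S)).2.1 (glocEquiv q.1 d) 1
        rw [mul_one] at this
        exact this }

lemma jsEv_apply (q : S) (f : Additive (JS S)) :
    (jsEv S q).hom (f : Rep.res (rloc q.1) (JSrep S)) =
      Additive.ofMul (jsEval S q (Additive.toMul f : JS S)) := rfl

/-- `ev_q (g • f) = f_q(g)` -/
lemma jsEv_ρ (q : S) (g : GQ) (f : Additive (JS S)) :
    (jsEv S q).hom ((JSrep S).ρ g f : Rep.res (rloc q.1) (JSrep S)) =
      Additive.ofMul ((JS.comp S q (Additive.toMul f : JS S)).1 g) :=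
  congrArg Additive.ofMul (jsEval_smul S q g (Additive.toMul f : JS S))

/-- **`J_S` is the smooth coinduction of the `(ℚ̄_q)ˣ`, `q ∈ S`.** -/
def jsCoind : SmCoind (basisS S) (fun q : S => Gloc q.1) (fun q => rloc q.1) (fun q => Yloc q.1)
    (JSrep S) where
  ev := jsEv S
  sm := isSm_ofLevel_iff.2 (JSrep_isSmooth S)
  inj := by
    intro (f : Additive (JS S)) h
    have h' : ∀ (q : S) (g : GQ), (JS.comp S q (Additive.toMul f : JS S)).1 g = 1 := fun q g => by
      have := h q g
      rw [jsEv_ρ] at this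
      exact this
    have : (Additive.toMul f : JS S) = 1 := by
      apply JS.ext S
      intro q
      ext g
      exact congrArg Units.val (h' q g)
    exact congrArg Additive.ofMul this
  surj := by
    intro F hF hU
    obtain ⟨_, ⟨L, hL, -, rfl⟩, hFU⟩ := hU
    let f : JS S := JS.mk S fun q => ⟨fun g => Additive.toMul (F q g), by
      refine ⟨fun d g => ?_, L, hL, fun g s hs => ?_⟩
      · have := hF q ((glocEquiv q.1).symm d) g
        rw [Yloc_ρ_apply] at this
        exact congrArg (fun u : Additive (PadicAlgCl (q.1 : ℕ))ˣ =>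
          ((Additive.toMul u : (PadicAlgCl (q.1 : ℕ))ˣ) : PadicAlgCl (q.1 : ℕ))) this
      · exact congrArg Additive.toMul (hFU q g s hs)⟩
    refine ⟨Additive.ofMul f, fun q g => ?_⟩
    rw [jsEv_ρ]
    rfl

end Fermat.Agent.S55lib
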