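/-
S55lib / GlobDual / LocalFacts  (helper7).

The local multiplicative modules `Y_q = (ℚ̄_q)ˣ` (`Yloc q`) for the Prelude's local Galois group with its full
topology `basisLoc q` (preimages of global levels; cofinal by helper3's Krasner density):

* `coarser_basisLoc` : the `G_S`-topology pulled back to `G_q` is coarser than `basisLoc q`;
* `isSm_Yloc` : `Y_q` is smooth;
* `Yloc_divisible` : `Y_q` is divisible;
* `h1Vanishes_Yloc` : Hilbert 90, `H¹(U, Y_q) = 0` for every basic open `U`;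
* `h90_hom` : the cofinal vanishing of `H¹(U', Hom(P, Y_q))` needed by `Cpx/FourTerm`.
-/
import Fermat.Agent.S55lib.GlobDual.JSCoind
import Fermat.Agent.S55lib.LocalUnr.KrasnerDense
import Fermat.Agent.S55lib.Cpx.H90
import Fermat.Agent.S55lib.Cpx.Resolve

set_option autoImplicit false

noncomputable section

namespace Fermat.Agent.S55lib

open groupCohomology ExtCitation

variable (S : Finset Nat.Primes) (q : Nat.Primes)

/-- every global `S`-level pulls back to a local level -/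
lemma coarser_basisLoc : Csm.Coarser ((basisS S).comap (rloc q)) (basisLoc q) := by
  rintro _ ⟨_, ⟨F, hF, hN, rfl⟩, rfl⟩
  exact ⟨_, ⟨F, hF.1, hN, rfl⟩, le_rfl⟩

/-- the local field `ℚ_q · τ_q(F)` -/
def locField (F : FieldQ) : IntermediateField ℚ_[(q : ℕ)] (PadicAlgCl (q : ℕ)) :=
  IntermediateField.adjoin ℚ_[(q : ℕ)] (padicEmbedding (q : ℕ) '' (F : Set (AlgebraicClosure ℚ)))

lemma rloc_mem_fixingSubgroup_iff (F : FieldQ) (s : Gloc q) :
    rloc q s ∈ F.fixingSubgroup ↔ glocEquiv q s ∈ (locField q F).fixingSubgroup :=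
  LocalUnr.localGaloisToGlobal_mem_fixingSubgroup_iff (q : ℕ) F (glocEquiv q s)

/-- `(ℚ̄_q)ˣ` is a smooth `G_q`-module -/
lemma isSm_Yloc : IsSm (basisLoc q) (Yloc q) := by
  rw [isSm_ofLevel_iff]
  intro a
  obtain ⟨F, hF, hy⟩ := LocalUnr.exists_numberField_mem_adjoin (q : ℕ)
    ((Additive.toMul a : (PadicAlgCl (q : ℕ))ˣ) : PadicAlgCl (q : ℕ))
  refine ⟨F, hF, fun s hs => ?_⟩
  have h1 := (rloc_mem_fixingSubgroup_iff q F s).1 hs
  rw [Yloc_ρ_apply]
  apply congrArg Additive.ofMul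
  ext
  exact (IntermediateField.mem_fixingSubgroup_iff _ _).1 h1 _ hy

/-- `(ℚ̄_q)ˣ` is divisible -/
lemma Yloc_divisible (n : ℕ) (hn : 0 < n) (y : Yloc q) : ∃ z : Yloc q, n • z = y := by
  obtain ⟨z, hz⟩ := IsAlgClosed.exists_pow_nat_eq
    ((Additive.toMul y : (PadicAlgCl (q : ℕ))ˣ) : PadicAlgCl (q : ℕ)) hn
  have hz0 : z ≠ 0 := by
    rintro rfl
    rw [zero_pow hn.ne'] at hz
    exact (Additive.toMul y : (PadicAlgCl (q : ℕ))ˣ).ne_zero hz.symm
  refine ⟨Additive.ofMul (Units.mk0 z hz0), ?_⟩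
  show Additive.ofMul ((Units.mk0 z hz0) ^ n) = y
  apply congrArg Additive.ofMul (a₂ := (Additive.toMul y : (PadicAlgCl (q : ℕ))ˣ))
  ext
  simpa using hz

/-- **Hilbert 90** for the local Galois group: `H¹(U, (ℚ̄_q)ˣ) = 0` for every basic open `U`. -/
theorem h1Vanishes_Yloc {U : Subgroup (Gloc q)} (hU : U ∈ (basisLoc q).sets) :
    Csm.H1Vanishes (basisLoc q) (Yloc q) U := by
  intro c hc hcoc
  obtain ⟨U₁, hU₁, hc1, hc2⟩ := hc
  obtain ⟨U₂, hU₂, hle⟩ := (basisLoc q).directed U₁ hU₁ U hU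
  have hfinU₂ : U₂.FiniteIndex := (basisLoc q).finiteIndex U₂ hU₂
  obtain ⟨F₂, hF₂, hN₂, rfl⟩ := hU₂
  let L : Submonoid (PadicAlgCl (q : ℕ)) :=
    { carrier := (locField q F₂ : Set (PadicAlgCl (q : ℕ)))
      mul_mem' := fun hx hy => mul_mem hx hy
      one_mem' := one_mem _ }
  let c' : GalQq (q : ℕ) → PadicAlgCl (q : ℕ) := fun g =>
    ((Additive.toMul (c ((glocEquiv q).symm g)) : (PadicAlgCl (q : ℕ))ˣ) : PadicAlgCl (q : ℕ))
  let U' : Subgroup (GalQq (q : ℕ)) := U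
  let U₂' : Subgroup (GalQq (q : ℕ)) := F₂.fixingSubgroup.comap (rloc q)
  have : U₂'.FiniteIndex := hfinU₂
  have hfin : (U₂'.subgroupOf U').FiniteIndex := Subgroup.instFiniteIndex_subgroupOf _ _
  have hfix : ∀ u ∈ U₂', ∀ x ∈ L, u • x = x := fun u hu x hx => by
    have h1 := (rloc_mem_fixingSubgroup_iff q F₂ u).1 hu
    exact (IntermediateField.mem_fixingSubgroup_iff _ _).1 h1 x hx
  have hsep : ∀ s ∈ U', (∀ x ∈ L, s • x = x) → s ∈ U₂' := fun s _ hs => by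
    show rloc q s ∈ F₂.fixingSubgroup
    rw [rloc_mem_fixingSubgroup_iff]
    exact (IntermediateField.mem_fixingSubgroup_iff _ _).2 hs
  have hc' : ∀ s ∈ U', ∀ t ∈ U', c' (s * t) = c' s * s • c' t := fun s hs t ht => by
    have h1 := hcoc s hs t ht
    have h2 := congrArg (fun u : Additive (PadicAlgCl (q : ℕ))ˣ =>
      ((Additive.toMul u : (PadicAlgCl (q : ℕ))ˣ) : PadicAlgCl (q : ℕ))) h1
    rw [Yloc_ρ_apply] at h2
    rw [mul_comm]
    exact h2
  have hinv : ∀ s ∈ U', ∀ u ∈ U₂', u ∈ U' → c' (s * u) = c' s := fun s _ u hu _ => by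
    have := hc1 s u ((hle.trans inf_le_left) hu)
    exact congrArg (fun y : Additive (PadicAlgCl (q : ℕ))ˣ =>
      ((Additive.toMul y : (PadicAlgCl (q : ℕ))ˣ) : PadicAlgCl (q : ℕ))) this
  obtain ⟨b, hb0, hb⟩ := hilbert90_dedekind (Ω := PadicAlgCl (q : ℕ)) (G := GalQq (q : ℕ))
    U' U₂' L hfix hsep c' (fun s _ => Units.ne_zero _) hc' hinv
  let y0 : (PadicAlgCl (q : ℕ))ˣ := (Units.mk0 b hb0)⁻¹
  refine ⟨(Additive.ofMul y0 : Additive (PadicAlgCl (q : ℕ))ˣ), isSm_Yloc q _, fun s hs => ?_⟩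
  have h3 : c' (glocEquiv q s) * (glocEquiv q s) b = b := hb (glocEquiv q s) hs
  have h2 : (glocEquiv q s) b ≠ 0 := by
    simpa using hb0
  rw [Yloc_ρ_apply]
  apply congrArg Additive.ofMul (a₁ := (Additive.toMul (c s) : (PadicAlgCl (q : ℕ))ˣ))
  ext
  have hy0 : (y0 : PadicAlgCl (q : ℕ)) = b⁻¹ := by simp [y0]
  simp only [toMul_ofMul, Units.val_div_eq_div_val, Units.coe_map, MonoidHom.coe_coe]
  show c' (glocEquiv q s) = (glocEquiv q s) (y0 : PadicAlgCl (q : ℕ)) / (y0 : PadicAlgCl (q : ℕ))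
  rw [hy0, map_inv₀]
  calc c' (glocEquiv q s) = (c' (glocEquiv q s) * (glocEquiv q s) b) * ((glocEquiv q s) b)⁻¹ := by
        field_simp
    _ = b * ((glocEquiv q s) b)⁻¹ := by rw [h3]
    _ = ((glocEquiv q s) b)⁻¹ / b⁻¹ := by field_simp

/-- a finitely generated smooth module is fixed pointwise by a basic open subgroup -/
lemma IsSm.exists_fixing {k G : Type} [CommRing k] [Group G] {𝒰 : OpenBasis G} {P : Rep.{0} k G}
    [Module.Finite k P] (hP : IsSm 𝒰 P) : ∃ W ∈ 𝒰.sets, ∀ s ∈ W, ∀ x : P, P.ρ s x = x := by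
  obtain ⟨T, hT⟩ := (Module.Finite.fg_top : (⊤ : Submodule k P).FG)
  choose V hV hVfix using hP
  obtain ⟨W, hW, hle⟩ := 𝒰.exists_le_of_finite T.finite_toSet V (fun t _ => ⟨V t, hV t, le_rfl⟩)
  refine ⟨W, hW, fun s hs x => ?_⟩
  have : P.ρ s = LinearMap.id := by
    apply LinearMap.ext_on hT
    intro t ht
    exact hVfix t s (hle t ht hs)
  rw [this]
  rfl

/-- restriction to the local group preserves smoothness -/
lemma isSm_res_basisLoc {P : Rep.{0} ℤ GQ} (hP : IsSm (basisS S) P) :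
    IsSm (basisLoc q) (Rep.res (rloc q) P) := fun x => by
  obtain ⟨U, hU, hx⟩ := hP x
  obtain ⟨V, hV, hle⟩ := coarser_basisLoc S q (U.comap (rloc q))
    ((basisS S).comap_mem_comap (rloc q) hU)
  exact ⟨V, hV, fun s hs => hx (rloc q s) (hle hs)⟩

/-- the cofinal vanishing of `H¹(U', Hom(P, (ℚ̄_q)ˣ))` (Hilbert 90), as needed by `Cpx/FourTerm` -/
theorem h90_hom {N : Rep.{0} ℤ GQ} (R : TwoTermRes (basisS S) N) :
    ∀ U ∈ ((basisS S).comap (rloc q)).sets, ∃ U' ∈ ((basisS S).comap (rloc q)).sets, U' ≤ U ∧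
      Csm.H1Vanishes (basisLoc q) (homRep (Rep.res (rloc q) R.P0) (Yloc q)) U' := by
  rintro _ ⟨U, hU, rfl⟩
  obtain ⟨W, hW, hWfix⟩ := IsSm.exists_fixing R.sm0
  obtain ⟨W', hW', hle⟩ := (basisS S).directed U hU W hW
  refine ⟨W'.comap (rloc q), (basisS S).comap_mem_comap (rloc q) hW',
    Subgroup.comap_mono (hle.trans inf_le_left), ?_⟩
  have hW'loc : W'.comap (rloc q) ∈ (basisLoc q).sets := by
    obtain ⟨F, hF, hN, rfl⟩ := hW'
    exact ⟨F, hF.1, hN, rfl⟩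
  have h1 : @Module.Finite ℤ (Rep.res (rloc q) R.P0) _ _ (Rep.res (rloc q) R.P0).hV2 := R.fin0
  have h2 : @Module.Free ℤ (Rep.res (rloc q) R.P0) _ _ (Rep.res (rloc q) R.P0).hV2 := R.free0
  exact @Csm.H1Vanishes.linHom ℤ (Gloc q) _ _ (basisLoc q) (Rep.res (rloc q) R.P0) (Yloc q) h1 h2
    (isSm_res_basisLoc S q R.sm0) (isSm_Yloc q) _
    (fun s hs x => hWfix (rloc q s) ((hle.trans inf_le_right) hs) x) (h1Vanishes_Yloc q hW'loc)

end Fermat.Agent.S55lib
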