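/-
S55lib / GlobDual / ESFacts  (helper7).

Arithmetic facts about `E_S` (helper4's `ESrep S`) for `p ∈ S`:
* `isSm_ESrep`, `isSm_CSrep` : smoothness for `basisS S`;
* `mem_ES_of_pow_mem` : a `p`-th root of an element of `E_S` is in `E_S` (Kummer extensions of `S`-units are
  unramified outside `S`), hence `ESrep_divisible` : `E_S` is `p`-divisible;
* `zetaES` : a primitive `p`-th root of unity as an element of `E_S`, with `zetaES_nsmul`, `zetaES_ne_zero`,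
  `ESrep_ρ_zeta` (Galois acts through `cycloChar p`), `ESrep_torsion` (`E_S[p] = ⟨ζ⟩`);
* the same facts for the local modules `Yloc q` with `ζ_q = τ_q ζ` (`zetaLoc`).
-/
import Fermat.Agent.S55lib.GlobDual.LocalFacts
import Fermat.Agent.S55lib.Iface.KummerUnr

set_option autoImplicit false

noncomputable section

namespace Fermat.Agent.S55lib

open groupCohomology ExtCitation IntermediateField

variable (S : Finset Nat.Primes)

lemma isSm_ESrep : IsSm (basisS S) (ESrep S) := isSm_ofLevel_iff.2 (ESrep_isSmooth S)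

lemma isSm_CSrep : IsSm (basisS S) (CSrep S) := isSm_ofLevel_iff.2 (CSrep_isSmooth S)

variable {p : ℕ} [hp : Fact p.Prime]

lemma norm_eq_one_of_pow {q : ℕ} [Fact q.Prime] {x : PadicAlgCl q} {n : ℕ} (hn : n ≠ 0)
    (h : ‖x ^ n‖ = 1) : ‖x‖ = 1 := by
  rw [norm_pow] at h
  exact (pow_eq_one_iff_of_nonneg (norm_nonneg x) hn).1 h

/-- a `p`-th root of an element of `E_S` is in `E_S` (`p ∈ S`) -/
theorem mem_ES_of_pow_mem (hpS : (⟨p, hp.out⟩ : Nat.Primes) ∈ S) {β : Qbarˣ}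
    (h : β ^ p ∈ ES S) : β ∈ ES S := by
  obtain ⟨hu, F, hF, huF⟩ := h
  have hβ : IsSUnit S (β : Qbar) := fun q hq ι => by
    have := hu q hq ι
    rw [Units.val_pow_eq_pow_val, map_pow] at this
    exact norm_eq_one_of_pow hp.out.ne_zero this
  refine ⟨hβ, F ⊔ ℚ⟮(β : Qbar)⟯, ?_, ?_⟩
  · refine isUnramifiedOutside_adjoin_root_of_norm hp.out hpS hF
      (by rw [← Units.val_pow_eq_pow_val]; exact huF) (fun r hr g => ⟨1, one_mem _, ?_⟩)
    rw [mul_one]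
    exact hβ r hr ((padicEmbedding (r : ℕ)).comp (g : Qbar →ₐ[ℚ] Qbar))
  · exact (le_sup_right : ℚ⟮(β : Qbar)⟯ ≤ F ⊔ ℚ⟮(β : Qbar)⟯)
      (IntermediateField.mem_adjoin_simple_self ℚ _)

/-- `E_S` is `p`-divisible (`p ∈ S`) -/
theorem ESrep_divisible (hpS : (⟨p, hp.out⟩ : Nat.Primes) ∈ S) (y : ESrep S) :
    ∃ z : ESrep S, p • z = y := by
  set u : ES S := Additive.toMul y with hu
  obtain ⟨z, hz⟩ := IsAlgClosed.exists_pow_nat_eq ((u : Qbarˣ) : Qbar) hp.out.pos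
  have hz0 : z ≠ 0 := by
    rintro rfl
    rw [zero_pow hp.out.ne_zero] at hz
    exact (u : Qbarˣ).ne_zero hz.symm
  have hmem : Units.mk0 z hz0 ∈ ES S := by
    apply mem_ES_of_pow_mem S hpS
    have : (Units.mk0 z hz0) ^ p = (u : Qbarˣ) := by
      ext
      simpa using hz
    rw [this]
    exact u.2
  refine ⟨Additive.ofMul (⟨Units.mk0 z hz0, hmem⟩ : ES S), ?_⟩
  show Additive.ofMul ((⟨Units.mk0 z hz0, hmem⟩ : ES S) ^ p) = y
  apply congrArg Additive.ofMul (a₂ := u)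
  ext
  simpa using hz

section zeta

variable (p)

/-- a primitive `p`-th root of unity in `ℚ̄` -/
def zetaQbar : Qbar :=
  haveI : NeZero p := ⟨hp.out.ne_zero⟩
  (HasEnoughRootsOfUnity.exists_primitiveRoot Qbar p).choose

lemma zetaQbar_spec : IsPrimitiveRoot (zetaQbar p) p :=
  haveI : NeZero p := ⟨hp.out.ne_zero⟩
  (HasEnoughRootsOfUnity.exists_primitiveRoot Qbar p).choose_spec

/-- `ζ_p` as a unit -/
def zetaUnit : Qbarˣ := (zetaQbar_spec p).isUnit hp.out.ne_zero |>.unit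

@[simp] lemma zetaUnit_val : ((zetaUnit p : Qbarˣ) : Qbar) = zetaQbar p := rfl

lemma zetaUnit_pow : zetaUnit p ^ p = 1 := by
  ext
  rw [Units.val_pow_eq_pow_val, zetaUnit_val, (zetaQbar_spec p).pow_eq_one, Units.val_one]

variable {p}

lemma zetaUnit_mem (hpS : (⟨p, hp.out⟩ : Nat.Primes) ∈ S) : zetaUnit p ∈ ES S := by
  apply mem_ES_of_pow_mem S hpS
  rw [zetaUnit_pow]
  exact one_mem _

/-- `ζ_p` as an element of `E_S` (additively written) -/
def zetaES (hpS : (⟨p, hp.out⟩ : Nat.Primes) ∈ S) : ESrep S :=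
  Additive.ofMul (⟨zetaUnit p, zetaUnit_mem S hpS⟩ : ES S)

lemma zetaES_smul (hpS : (⟨p, hp.out⟩ : Nat.Primes) ∈ S) : (p : ℤ) • zetaES S hpS = 0 := by
  rw [natCast_zsmul]
  show Additive.ofMul ((⟨zetaUnit p, zetaUnit_mem S hpS⟩ : ES S) ^ p) = 0
  have : (⟨zetaUnit p, zetaUnit_mem S hpS⟩ : ES S) ^ p = 1 := by
    ext
    rw [SubgroupClass.coe_pow, zetaUnit_pow]
    rfl
  rw [this]
  rfl

lemma zetaES_ne_zero (hpS : (⟨p, hp.out⟩ : Nat.Primes) ∈ S) : zetaES S hpS ≠ 0 := by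
  intro h
  have h1 : (⟨zetaUnit p, zetaUnit_mem S hpS⟩ : ES S) = 1 := h
  have h2 : zetaQbar p = 1 := by
    have := congrArg (fun u : ES S => ((u : Qbarˣ) : Qbar)) h1
    simpa using this
  exact (zetaQbar_spec p).ne_one hp.out.one_lt h2

/-- `G_ℚ` acts on `ζ_p` through the cyclotomic character -/
lemma ESrep_ρ_zeta (hpS : (⟨p, hp.out⟩ : Nat.Primes) ∈ S) (g : GQ) :
    (ESrep S).ρ g (zetaES S hpS) = (((cycloChar p g : (ZMod p)ˣ) : ZMod p).val : ℤ) • zetaES S hpS := by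
  have : NeZero p := ⟨hp.out.ne_zero⟩
  rw [natCast_zsmul]
  show Additive.ofMul (g • (⟨zetaUnit p, zetaUnit_mem S hpS⟩ : ES S)) =
    Additive.ofMul ((⟨zetaUnit p, zetaUnit_mem S hpS⟩ : ES S) ^ _)
  apply congrArg Additive.ofMul
  ext
  rw [ES.coe_smul, SubgroupClass.coe_pow, Units.val_pow_eq_pow_val, zetaUnit_val]
  have hmem : zetaUnit p ∈ rootsOfUnity p Qbar := by
    rw [mem_rootsOfUnity]
    exact zetaUnit_pow p
  have := modularCyclotomicCharacter.spec Qbar (card_rootsOfUnity_eq_self p)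
    (g : Qbar ≃+* Qbar) hmem
  exact this

/-- `E_S[p]` is generated by `ζ_p` -/
lemma ESrep_torsion (hpS : (⟨p, hp.out⟩ : Nat.Primes) ∈ S) (x : ESrep S)
    (hx : (p : ℤ) • x = 0) : ∃ n : ℤ, x = n • zetaES S hpS := by
  have : NeZero p := ⟨hp.out.ne_zero⟩
  set u : ES S := Additive.toMul x with hu
  have h1 : u ^ p = 1 := by
    rw [natCast_zsmul] at hx
    exact hx
  have h2 : ((u : Qbarˣ) : Qbar) ^ p = 1 := by
    have := congrArg (fun v : ES S => ((v : Qbarˣ) : Qbar)) h1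
    simpa using this
  obtain ⟨i, -, hi⟩ := (zetaQbar_spec p).eq_pow_of_pow_eq_one h2
  refine ⟨i, ?_⟩
  rw [natCast_zsmul]
  show Additive.ofMul u = Additive.ofMul ((⟨zetaUnit p, zetaUnit_mem S hpS⟩ : ES S) ^ i)
  apply congrArg Additive.ofMul
  ext
  rw [SubgroupClass.coe_pow, Units.val_pow_eq_pow_val, zetaUnit_val, hi]

/-! ### The local modules -/

/-- `ζ_p` in `(ℚ̄_q)ˣ`, as the image of `zetaES` under `E_S → J_S → Y_q` -/
def zetaLoc (hpS : (⟨p, hp.out⟩ : Nat.Primes) ∈ S) (q : S) : Yloc q.1 :=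
  (jsEv S q).hom (((iES S).hom (zetaES S hpS) : JSrep S) : Rep.res (rloc q.1) (JSrep S))

lemma zetaLoc_val (hpS : (⟨p, hp.out⟩ : Nat.Primes) ∈ S) (q : S) :
    ((Additive.toMul (zetaLoc S hpS q) : (PadicAlgCl (q.1 : ℕ))ˣ) : PadicAlgCl (q.1 : ℕ)) =
      padicEmbedding (q.1 : ℕ) (zetaQbar p) := by
  show padicEmbedding (q.1 : ℕ) ((1 : GQ) (zetaQbar p)) = _
  rfl

lemma zetaLoc_smul (hpS : (⟨p, hp.out⟩ : Nat.Primes) ∈ S) (q : S) :
    (p : ℤ) • zetaLoc S hpS q = 0 := by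
  unfold zetaLoc
  rw [← map_zsmul, ← map_zsmul, zetaES_smul, map_zero, map_zero]

lemma zetaLoc_isPrimitiveRoot (hpS : (⟨p, hp.out⟩ : Nat.Primes) ∈ S) (q : S) :
    IsPrimitiveRoot ((Additive.toMul (zetaLoc S hpS q) : (PadicAlgCl (q.1 : ℕ))ˣ) :
      PadicAlgCl (q.1 : ℕ)) p := by
  rw [zetaLoc_val]
  exact (zetaQbar_spec p).map_of_injective (padicEmbedding (q.1 : ℕ)).injective

lemma zetaLoc_ne_zero (hpS : (⟨p, hp.out⟩ : Nat.Primes) ∈ S) (q : S) : zetaLoc S hpS q ≠ 0 := by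
  intro h
  have h1 : ((Additive.toMul (zetaLoc S hpS q) : (PadicAlgCl (q.1 : ℕ))ˣ) : PadicAlgCl (q.1 : ℕ)) =
      1 := by
    rw [h]; rfl
  exact (zetaLoc_isPrimitiveRoot S hpS q).ne_one hp.out.one_lt h1

/-- `G_q` acts on `ζ_p` through the cyclotomic character -/
lemma Yloc_ρ_zeta (hpS : (⟨p, hp.out⟩ : Nat.Primes) ∈ S) (q : S) (d : Gloc q.1) :
    (Yloc q.1).ρ d (zetaLoc S hpS q) =
      (((cycloChar p (rloc q.1 d) : (ZMod p)ˣ) : ZMod p).val : ℤ) • zetaLoc S hpS q := by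
  unfold zetaLoc
  rw [← Rep.hom_comm_apply (jsEv S q) d]
  have h1 : (Rep.res (rloc q.1) (JSrep S)).ρ d
      (((iES S).hom (zetaES S hpS) : JSrep S) : Rep.res (rloc q.1) (JSrep S)) =
      (JSrep S).ρ (rloc q.1 d) ((iES S).hom (zetaES S hpS)) := rfl
  rw [h1, ← Rep.hom_comm_apply (iES S) (rloc q.1 d), ESrep_ρ_zeta, map_zsmul]
  exact map_zsmul (jsEv S q).hom _ _

/-- `Y_q[p]` is generated by `ζ_p` -/
lemma Yloc_torsion (hpS : (⟨p, hp.out⟩ : Nat.Primes) ∈ S) (q : S) (x : Yloc q.1)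
    (hx : (p : ℤ) • x = 0) : ∃ n : ℤ, x = n • zetaLoc S hpS q := by
  have : NeZero p := ⟨hp.out.ne_zero⟩
  set u : (PadicAlgCl (q.1 : ℕ))ˣ := Additive.toMul x with hu
  have h1 : u ^ p = 1 := by
    rw [natCast_zsmul] at hx
    exact hx
  have h2 : (u : PadicAlgCl (q.1 : ℕ)) ^ p = 1 := by
    rw [← Units.val_pow_eq_pow_val, h1, Units.val_one]
  obtain ⟨i, -, hi⟩ := (zetaLoc_isPrimitiveRoot S hpS q).eq_pow_of_pow_eq_one h2
  refine ⟨i, ?_⟩
  rw [natCast_zsmul]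
  show Additive.ofMul u = Additive.ofMul
    ((Additive.toMul (zetaLoc S hpS q) : (PadicAlgCl (q.1 : ℕ))ˣ) ^ i)
  apply congrArg Additive.ofMul
  ext
  rw [Units.val_pow_eq_pow_val, hi]

end zeta

end Fermat.Agent.S55lib
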