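/-
S55lib / GlobDual / SmoothM  (helper7).

* `isSmooth_of_unramified` : a finite `G_ℚ`-module which is discrete (every element fixed by an open
  subgroup) and unramified outside `S` (inertia at `q ∉ S` acts trivially) is smooth for the level class
  `unr S` (the field cut out by the module is unramified outside `S`; infinite Galois correspondence);
* `cycloChar_eq_one` : the mod `p` cyclotomic character is trivial on a level of `unr S` (`p ∈ S`);
* `isSmooth_dualTwist` : `M^∨(1)` is smooth for `unr S` if `M` is.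
-/
import Fermat.Agent.S55lib.GlobDual.ESFacts
import Fermat.Agent.S55lib.Iface.DualTwist

set_option autoImplicit false

noncomputable section

namespace Fermat.Agent.S55lib

open groupCohomology ExtCitation

variable (S : Finset Nat.Primes)

/-- discrete + unramified outside `S` ⇒ smooth for `unr S` -/
theorem isSmooth_of_unramified {k : Type} [CommRing k] (M : Rep.{0} k GQ) [Finite M]
    (hsm : ∀ m : M, ∃ F : FieldQ, FiniteDimensional ℚ F ∧ ∀ s ∈ F.fixingSubgroup, M.ρ s m = m)
    (hMur : ∀ q : Nat.Primes, q ∉ S → ∀ A : ValuationSubring (AlgebraicClosure ℚ),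
      A.LiesOverPrime (q : ℕ) → ∀ g ∈ A.inertiaSubgroupIn ℚ, M.ρ g = 1) :
    Sm.IsSmooth (MonoidHom.id GQ) (LevelClass.unr S) M := by
  classical
  have : IsGalois ℚ (AlgebraicClosure ℚ) := ⟨⟩
  choose F hF hfix using hsm
  have : ∀ m, FiniteDimensional ℚ (F m) := hF
  let F₀ : FieldQ := ⨆ m, F m
  let K : Subgroup GQ := MonoidHom.ker M.ρ
  have hF₀K : F₀.fixingSubgroup ≤ K := by
    intro s hs
    rw [MonoidHom.mem_ker]
    apply LinearMap.ext
    intro m
    exact hfix m s (IntermediateField.fixingSubgroup_antitone (le_iSup F m) hs)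
  have hKopen : IsOpen (K : Set GQ) :=
    Subgroup.isOpen_mono hF₀K (IntermediateField.fixingSubgroup_isOpen F₀)
  let Kc : ClosedSubgroup GQ := ⟨K, (OpenSubgroup.isClosed ⟨K, hKopen⟩ : _)⟩
  let F' : FieldQ := IntermediateField.fixedField K
  have hF'fix : F'.fixingSubgroup = K := InfiniteGalois.fixingSubgroup_fixedField Kc
  have hF'le : F' ≤ F₀ := by
    have h1 : IntermediateField.fixedField F₀.fixingSubgroup = F₀ :=
      InfiniteGalois.fixedField_fixingSubgroup F₀
    rw [← h1]
    exact IntermediateField.fixedField_antitone hF₀K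
  have hF'unr : F'.IsUnramifiedOutside S := by
    refine ⟨?_, fun q hq A hA σ hσ => ?_⟩
    · exact FiniteDimensional.of_injective (IntermediateField.inclusion hF'le).toLinearMap
        (IntermediateField.inclusion_injective hF'le)
    · rw [hF'fix]
      exact (MonoidHom.mem_ker).2 (hMur q hq A hA σ hσ)
  intro m
  refine ⟨F', hF'unr, fun s hs => ?_⟩
  have : s ∈ K := by rw [← hF'fix]; exact hs
  rw [MonoidHom.mem_ker.1 this]
  rfl

variable {p : ℕ} [hp : Fact p.Prime]

/-- the cyclotomic character is trivial on a level unramified outside `S` (`p ∈ S`) -/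
lemma exists_level_cycloChar_eq_one (hpS : (⟨p, hp.out⟩ : Nat.Primes) ∈ S) :
    ∃ F : FieldQ, F.IsUnramifiedOutside S ∧ ∀ s ∈ F.fixingSubgroup, cycloChar p s = 1 := by
  have : NeZero p := ⟨hp.out.ne_zero⟩
  obtain ⟨-, F, hF, hζF⟩ := zetaUnit_mem S hpS
  refine ⟨F, hF, fun s hs => ?_⟩
  have h1 : s (zetaQbar p) = zetaQbar p :=
    (IntermediateField.mem_fixingSubgroup_iff _ _).1 hs _ hζF
  have hmem : zetaUnit p ∈ rootsOfUnity p Qbar := by
    rw [mem_rootsOfUnity]
    exact zetaUnit_pow p
  have h2 : s (zetaQbar p) = zetaQbar p ^ ((cycloChar p s : (ZMod p)ˣ) : ZMod p).val :=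
    modularCyclotomicCharacter.spec Qbar (card_rootsOfUnity_eq_self p) (s : Qbar ≃+* Qbar) hmem
  rw [h1] at h2
  have h3 : ((cycloChar p s : (ZMod p)ˣ) : ZMod p).val = 1 := by
    have h4 : zetaQbar p ^ 1 = zetaQbar p ^ ((cycloChar p s : (ZMod p)ˣ) : ZMod p).val := by
      rw [pow_one]; exact h2
    exact ((zetaQbar_spec p).pow_inj hp.out.one_lt (ZMod.val_lt _) h4).symm
  apply Units.ext
  rw [Units.val_one, ← ZMod.natCast_zmod_val ((cycloChar p s : (ZMod p)ˣ) : ZMod p), h3,
    Nat.cast_one]

/-- `M^∨(1)` is smooth if `M` is -/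
theorem isSmooth_dualTwist (hpS : (⟨p, hp.out⟩ : Nat.Primes) ∈ S) (M : Rep.{0} (ZMod p) GQ)
    [FiniteDimensional (ZMod p) M]
    (hM : Sm.IsSmooth (MonoidHom.id GQ) (LevelClass.unr S) M) :
    Sm.IsSmooth (MonoidHom.id GQ) (LevelClass.unr S) (M.dualTwist (cycloChar p)) := by
  classical
  obtain ⟨F₁, hF₁, hχ⟩ := exists_level_cycloChar_eq_one S hpS
  -- a common level for a basis of `M`
  let b := Module.finBasis (ZMod p) M
  choose F hF hfix using fun i => hM (b i)
  have hF₂ : (Finset.univ.sup F).IsUnramifiedOutside S := by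
    refine Finset.sup_induction (p := fun E : FieldQ => E.IsUnramifiedOutside S)
      (IntermediateField.isUnramifiedOutside_bot S) (fun _ h _ h' => h.sup h') (fun i _ => hF i)
  intro f
  refine ⟨F₁ ⊔ Finset.univ.sup F, hF₁.sup hF₂, fun s hs => ?_⟩
  have hs1 : s ∈ F₁.fixingSubgroup := IntermediateField.fixingSubgroup_antitone le_sup_left hs
  have hs2 : ∀ i, s⁻¹ ∈ (F i).fixingSubgroup := fun i =>
    inv_mem (IntermediateField.fixingSubgroup_antitone
      ((Finset.le_sup (Finset.mem_univ i)).trans le_sup_right) hs)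
  have hρ : M.ρ s⁻¹ = LinearMap.id := by
    apply b.ext
    intro i
    exact hfix i s⁻¹ (hs2 i)
  rw [Rep.dualTwist_ρ_apply, hχ s hs1, hρ]
  simp

end Fermat.Agent.S55lib
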