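/-
S55lib / GlobDual / Twist  (helper7).

The identifications `M ≅ Hom(M′, E_S)` (global, helper4's `dualTwistMor`) and
`M|_{G_q} ≅ Hom(M′|_{G_q}, (ℚ̄_q)ˣ)` (local, `locTwist`), `M′ = M^∨(1)`, and their compatibility with the
coefficient map `Hom(M′, E_S) → Hom(M′, (ℚ̄_q)ˣ)` of `Cpx/FourTerm` (`coef_globTwist`).
-/
import Fermat.Agent.S55lib.GlobDual.ESFacts
import Fermat.Agent.S55lib.Cpx.FourTerm
import Fermat.Agent.S55lib.Iface.DualTwist

set_option autoImplicit false

noncomputable section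

namespace Fermat.Agent.S55lib

open groupCohomology ExtCitation

/-! ### A twist morphism along a group homomorphism -/

section ResTwist

variable {G D : Type} [Group G] [Group D] {p : ℕ} [Fact p.Prime] (χ : G →* (ZMod p)ˣ) (r : D →* G)
  {V : Type} [AddCommGroup V] (ρX : Representation ℤ D V) (ζ : V) (hζp : (p : ℤ) • ζ = 0)
  (M : Rep.{0} (ZMod p) G) (hχ : ∀ d : D, ρX d ζ = (((χ (r d) : (ZMod p)ˣ) : ZMod p).val : ℤ) • ζ)

/-- the underlying additive map `m ↦ (f ↦ (f m) • ζ)` -/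
def resTwistLin : ↑(Rep.res r (toIntRep M)) →ₗ[ℤ]
    ↑(homRep (Rep.res r (toIntRep (M.dualTwist χ))) (Rep.of ρX)) :=
  dualTwistHom χ (1 : Representation ℤ G V) ζ hζp M

lemma resTwistLin_apply (m : M) (f : Module.Dual (ZMod p) M) :
    (resTwistLin χ r ρX ζ hζp M m) f = zetaHom ζ hζp (f m) := rfl

include hχ in
lemma resTwistLin_equivariant (d : D) (m : M) :
    resTwistLin χ r ρX ζ hζp M (M.ρ (r d) m) =
      (homRep (Rep.res r (toIntRep (M.dualTwist χ))) (Rep.of ρX)).ρ d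
        (resTwistLin χ r ρX ζ hζp M m) := by
  apply LinearMap.ext
  intro f
  rw [homRep.ρ_apply, resTwistLin_apply]
  change _ = ρX d (zetaHom ζ hζp (((M.dualTwist χ).ρ (r d⁻¹) f) m))
  rw [rho_zetaHom (χ.comp r) ρX ζ hζp hχ]
  congr 1
  change f (M.ρ (r d) m) = (χ (r d) : ZMod p) * ((M.dualTwist χ).ρ (r d⁻¹) f) m
  rw [Rep.dualTwist_ρ_apply, LinearMap.smul_apply, LinearMap.comp_apply, map_inv, inv_inv,
    smul_eq_mul, ← mul_assoc, map_inv, Units.mul_inv, one_mul]

include hχ in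
/-- the twist morphism `M|_D ⟶ Hom_ℤ(M^∨(χ)|_D, X)` -/
def resTwistMor : Rep.res r (toIntRep M) ⟶
    homRep (Rep.res r (toIntRep (M.dualTwist χ))) (Rep.of ρX) :=
  Rep.ofHom
    { toLinearMap := resTwistLin χ r ρX ζ hζp M
      isIntertwining' := fun d => by
        apply LinearMap.ext
        intro m
        exact resTwistLin_equivariant χ r ρX ζ hζp M hχ d m }

lemma resTwistMor_apply (m : M) (f : Module.Dual (ZMod p) M) :
    ((resTwistMor χ r ρX ζ hζp M hχ).hom m) f = zetaHom ζ hζp (f m) := rfl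

lemma resTwistMor_bijective [FiniteDimensional (ZMod p) M] (hζ0 : ζ ≠ 0)
    (hXp : ∀ x : V, (p : ℤ) • x = 0 → ∃ n : ℤ, x = n • ζ) :
    Function.Bijective (resTwistMor χ r ρX ζ hζp M hχ).hom :=
  ⟨dualTwistHom_injective χ (1 : Representation ℤ G V) ζ hζp M hζ0,
    dualTwistHom_surjective χ (1 : Representation ℤ G V) ζ hζp M hXp hζ0⟩

end ResTwist

/-! ### The global and local twists for `E_S`, `(ℚ̄_q)ˣ` -/

variable (S : Finset Nat.Primes) {p : ℕ} [hp : Fact p.Prime]
  (hpS : (⟨p, hp.out⟩ : Nat.Primes) ∈ S) (M : Rep.{0} (ZMod p) GQ)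

/-- `M ⟶ Hom(M′, E_S)` -/
def globTwist : toIntRep M ⟶ homRep (toIntRep (M.dualTwist (cycloChar p))) (ESrep S) :=
  dualTwistMor (cycloChar p) (Representation.ofMulDistribMulAction GQ (ES S)) (zetaES S hpS)
    (zetaES_smul S hpS) M (ESrep_ρ_zeta S hpS)

lemma globTwist_apply (m : M) (f : Module.Dual (ZMod p) M) :
    ((globTwist S hpS M).hom m) f = zetaHom (zetaES S hpS) (zetaES_smul S hpS) (f m) := rfl

lemma globTwist_bijective [FiniteDimensional (ZMod p) M] :
    Function.Bijective (globTwist S hpS M).hom :=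
  dualTwistMor_bijective (cycloChar p) (Representation.ofMulDistribMulAction GQ (ES S))
    (zetaES S hpS) (zetaES_smul S hpS) M (ESrep_ρ_zeta S hpS) (ESrep_torsion S hpS)
    (zetaES_ne_zero S hpS)

/-- `M|_{G_q} ⟶ Hom(M′|_{G_q}, (ℚ̄_q)ˣ)` -/
def locTwist (q : S) : Rep.res (rloc q.1) (toIntRep M) ⟶
    homRep (Rep.res (rloc q.1) (toIntRep (M.dualTwist (cycloChar p)))) (Yloc q.1) :=
  resTwistMor (cycloChar p) (rloc q.1)
    (Representation.ofMulDistribMulAction (GalQq (q.1 : ℕ)) (PadicAlgCl (q.1 : ℕ))ˣ)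
    (zetaLoc S hpS q) (zetaLoc_smul S hpS q) M (Yloc_ρ_zeta S hpS q)

lemma locTwist_apply (q : S) (m : M) (f : Module.Dual (ZMod p) M) :
    ((locTwist S hpS M q).hom m) f = zetaHom (zetaLoc S hpS q) (zetaLoc_smul S hpS q) (f m) := rfl

lemma locTwist_bijective [FiniteDimensional (ZMod p) M] (q : S) :
    Function.Bijective (locTwist S hpS M q).hom :=
  resTwistMor_bijective (cycloChar p) (rloc q.1) _ (zetaLoc S hpS q) (zetaLoc_smul S hpS q) M
    (Yloc_ρ_zeta S hpS q) (zetaLoc_ne_zero S hpS q) (Yloc_torsion S hpS q)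

/-- `ev_q ∘ ι` maps `a • ζ` to `a • ζ_q` -/
lemma jsEv_iES_zetaHom (q : S) (a : ZMod p) :
    (jsEv S q).hom (((iES S).hom (zetaHom (zetaES S hpS) (zetaES_smul S hpS) a) : JSrep S) :
      Rep.res (rloc q.1) (JSrep S)) = zetaHom (zetaLoc S hpS q) (zetaLoc_smul S hpS q) a := by
  obtain ⟨n, rfl⟩ := ZMod.intCast_surjective a
  rw [zetaHom_intCast, zetaHom_intCast, map_zsmul]
  exact map_zsmul (jsEv S q).hom _ _

/-- compatibility of the twists with the coefficient map of `Cpx/FourTerm` -/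
lemma coef_globTwist (q : S) (m : M) :
    (FourTerm.coef (jsCoind S) (iES S) (toIntRep (M.dualTwist (cycloChar p))) q).hom
      (((globTwist S hpS M).hom m : homRep (toIntRep (M.dualTwist (cycloChar p))) (ESrep S)) :
        Rep.res (rloc q.1) (homRep (toIntRep (M.dualTwist (cycloChar p))) (ESrep S))) =
      (locTwist S hpS M q).hom m := by
  apply LinearMap.ext
  intro f
  rw [FourTerm.coef_apply]
  exact jsEv_iES_zetaHom S hpS q _

end Fermat.Agent.S55lib
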