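/-
S55lib / GlobDual / PTHalf  (helper7).

The exactness half of helper4's `PTInput p S M`: with `M′ = M^∨(1)`, `N = M′` as a `ℤ[G_ℚ]`-module and a
two-term resolution `R` of `N`,
  `X := Ext¹(R, C_S)`,  `a : ∏_{q ∈ S} H¹(G_q, M) → X`,  `δ : X → H²(G_S, M)`
with `P¹ → X → H²(G_S, M) → P²` exact at the two middle terms (`PT.exact_X`, `PT.exact_H2`).
Instantiation of `Cpx/FourTerm` at `0 → E_S → J_S → C_S → 0`.
-/
import Fermat.Agent.S55lib.GlobDual.Twist
import Fermat.Agent.S55lib.GlobDual.Scalars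
import Fermat.Agent.S55lib.GlobDual.SmoothM
import Fermat.Agent.S55lib.Cpx.Baer
import Fermat.Agent.S55lib.Cpx.Resolve
import Fermat.Agent.S55lib.Iface.Assembly
import Fermat.Agent.S55lib.Iface.ExtCompare

set_option autoImplicit false

noncomputable section

namespace Fermat.Agent.S55lib

open groupCohomology ExtCitation

namespace PT

variable (S : Finset Nat.Primes) {p : ℕ} [hp : Fact p.Prime]
  (hpS : (⟨p, hp.out⟩ : Nat.Primes) ∈ S)
  (M : Rep.{0} (ZMod p) GQ) [FiniteDimensional (ZMod p) M]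
  (hM : Sm.IsSmooth (MonoidHom.id GQ) (LevelClass.unr S) M)

/-- `M′ = M^∨(1)` as a `ℤ[G_ℚ]`-module -/
abbrev N : Rep.{0} ℤ GQ := toIntRep (M.dualTwist (cycloChar p))

instance : Finite (N M) := by
  have : Finite M := Module.finite_of_finite (ZMod p)
  exact Finite.of_injective (fun f : Module.Dual (ZMod p) M => (f : M → ZMod p))
    DFunLike.coe_injective

include hpS hM in
lemma isSm_N : IsSm (basisS S) (N M) :=
  isSm_ofLevel_iff.2 (fun a => isSmooth_dualTwist S hpS M hM a)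

include hM in
lemma isSm_M : IsSm (basisS S) (toIntRep M) := isSm_ofLevel_iff.2 (fun a => hM a)

/-- a two-term resolution of `M′` by smooth finitely generated free `ℤ`-modules -/
def R : TwoTermRes (basisS S) (N M) :=
  Classical.choice (exists_twoTermRes (basisS S) (N M) (isSm_N S hpS M hM))

lemma R_pdiv (x : (R S hpS M hM).P0) : ∃ y, (R S hpS M hM).d.hom y = p • x := by
  apply ((R S hpS M hM).exact (p • x)).1
  rw [map_nsmul]
  exact ZModModule.char_nsmul_eq_zero p (((R S hpS M hM).q.hom x : N M) :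
    Module.Dual (ZMod p) M)

lemma hextE : Function.Surjective (homRep.mapL (R S hpS M hM).d (ESrep S)).hom :=
  homRep.mapL_surjective_of_pDivisible (addLin_int _ _) p (R S hpS M hM).d (R S hpS M hM).d_inj
    (R_pdiv S hpS M hM) (ESrep_divisible S hpS)

lemma hextY (q : S) : Function.Surjective
    (homRep.mapL (resHom (rloc q.1) (R S hpS M hM).d) (Yloc q.1)).hom :=
  homRep.mapL_surjective_of_pDivisible (addLin_int _ _) p (resHom (rloc q.1) (R S hpS M hM).d)
    (R S hpS M hM).d_inj (R_pdiv S hpS M hM) (Yloc_divisible q.1 p hp.out.pos)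

/-- `Ext¹(M′, C_S)` -/
abbrev X : Type := ExtH (basisS S) (R S hpS M hM).d (CSrep S) 1

/-! ### The identifications of the outer terms -/

include hM in
lemma isSmooth_resM (q : S) :
    Sm.IsSmooth (rloc q.1) LevelClass.all (Rep.res (rloc q.1) (toIntRep M)) :=
  isSm_ofLevel_iff.1 (isSm_res_basisLoc S q.1 (isSm_M S M hM))

/-- `H¹(G_q, M)` in the hub's model -/
def φ1 (q : S) : (Csm (basisLoc q.1) (Rep.res (rloc q.1) (toIntRep M))).H 1 →+ H1loc M q.1 :=
  (Sm.intH1 (rloc q.1) LevelClass.all (Rep.res (rloc q.1) M)).comp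
    (Csm.toSmH1 (rloc q.1) LevelClass.all (Rep.res (rloc q.1) (toIntRep M))).toAddMonoidHom

lemma φ1_bijective (q : S) : Function.Bijective (φ1 S M q) :=
  Sm.intH1_bijective.comp Csm.toSmH1_bijective

/-- `H²(G_q, M)` in the hub's model -/
def φ2loc (q : S) : (Csm (basisLoc q.1) (Rep.res (rloc q.1) (toIntRep M))).H 2 →+ H2loc M q.1 :=
  (Sm.intH2 (rloc q.1) LevelClass.all (Rep.res (rloc q.1) M)).comp
    (Csm.toSmH2 (rloc q.1) LevelClass.all (Rep.res (rloc q.1) (toIntRep M))).toAddMonoidHom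

include hM in
lemma φ2loc_bijective (q : S) : Function.Bijective (φ2loc S M q) :=
  Sm.intH2_bijective.comp (Csm.toSmH2_bijective (isSmooth_resM S M hM q))

/-- `H²(G_S, M)` in the hub's model -/
def φ2 : (Csm (basisS S) (toIntRep M)).H 2 →+ H2S S M :=
  (Sm.intH2 (MonoidHom.id GQ) (LevelClass.unr S) M).comp
    (Csm.toSmH2 (MonoidHom.id GQ) (LevelClass.unr S) (toIntRep M)).toAddMonoidHom

include hM in
lemma φ2_bijective : Function.Bijective (φ2 S M) :=
  Sm.intH2_bijective.comp (Csm.toSmH2_bijective (fun a => hM a))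

/-- restriction to `G_q` on the hub's cochains -/
def resq (q : S) : Cpx.Hom (Csm (basisS S) (toIntRep M))
    (Csm (basisLoc q.1) (Rep.res (rloc q.1) (toIntRep M))) :=
  Csm.resLevel (rloc q.1) (r := MonoidHom.id GQ) (r' := rloc q.1) (fun _ => rfl)
    (𝓛 := LevelClass.unr S) (𝓛' := LevelClass.all) (fun _ h => h.1) (toIntRep M)

lemma φ2loc_resq (q : S) (x : (Csm (basisS S) (toIntRep M)).H 2) :
    φ2loc S M q ((resq S M q).mapH 2 x) = loc2 S M q.1 (φ2 S M x) := by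
  show Sm.intH2 (rloc q.1) LevelClass.all (Rep.res (rloc q.1) M)
    (Csm.toSmH2 (rloc q.1) LevelClass.all (Rep.res (rloc q.1) (toIntRep M))
      ((resq S M q).mapH 2 x)) = _
  rw [resq, Csm.toSmH2_resLevel]
  exact Sm.intH2_resH2 (rloc q.1) (r := MonoidHom.id GQ) (r' := rloc q.1) (fun _ => rfl)
    (𝓛 := LevelClass.unr S) (𝓛' := LevelClass.all) (fun _ h => h.1) _

/-- the twist square -/
lemma locE_globTwist (q : S) (n : ℕ) (x : (Csm (basisS S) (toIntRep M)).H n) :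
    (FourTerm.locE (jsCoind S) (fun q : S => coarser_basisLoc S q.1) (iES S) (N M) q).mapH n
      ((Csm.map (basisS S) (globTwist S hpS M)).mapH n x) =
    (Csm.map (basisLoc q.1) (locTwist S hpS M q)).mapH n ((resq S M q).mapH n x) := by
  obtain ⟨x0, hx0, rfl⟩ := (Csm (basisS S) (toIntRep M)).exists_rep x
  simp only [Cpx.Hom.mapH_cl]
  refine Cpx.cl_congr _ ?_ _
  apply Subtype.ext
  funext g
  exact coef_globTwist S hpS M q _

/-! ### The twist isomorphisms on cohomology -/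

/-- `H¹(G_q, M) → H¹(G_q, Hom(M′, (ℚ̄_q)ˣ))` on the hub's cohomology -/
def ψ1 (q : S) : (Csm (basisLoc q.1) (Rep.res (rloc q.1) (toIntRep M))).H 1 →ₗ[ℤ]
    (Csm (basisLoc q.1) (homRep (Rep.res (rloc q.1) (N M)) (Yloc q.1))).H 1 :=
  (Csm.map (basisLoc q.1) (locTwist S hpS M q)).mapH 1

lemma ψ1_bijective (q : S) : Function.Bijective (ψ1 S hpS M q) :=
  Cpx.Hom.mapH_bijective_of_bijective _
    (Csm.map_bijective (basisLoc q.1) _ (locTwist_bijective S hpS M q)) 1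

/-- `H²(G_q, M) → H²(G_q, Hom(M′, (ℚ̄_q)ˣ))` on the hub's cohomology -/
def ψ2loc (q : S) : (Csm (basisLoc q.1) (Rep.res (rloc q.1) (toIntRep M))).H 2 →ₗ[ℤ]
    (Csm (basisLoc q.1) (homRep (Rep.res (rloc q.1) (N M)) (Yloc q.1))).H 2 :=
  (Csm.map (basisLoc q.1) (locTwist S hpS M q)).mapH 2

lemma ψ2loc_bijective (q : S) : Function.Bijective (ψ2loc S hpS M q) :=
  Cpx.Hom.mapH_bijective_of_bijective _
    (Csm.map_bijective (basisLoc q.1) _ (locTwist_bijective S hpS M q)) 2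

/-- `H²(G_S, M) → H²(G_S, Hom(M′, E_S))` on the hub's cohomology -/
def ψ2 : (Csm (basisS S) (toIntRep M)).H 2 →ₗ[ℤ] (Csm (basisS S) (homRep (N M) (ESrep S))).H 2 :=
  (Csm.map (basisS S) (globTwist S hpS M)).mapH 2

lemma ψ2_bijective : Function.Bijective (ψ2 S hpS M) :=
  Cpx.Hom.mapH_bijective_of_bijective _
    (Csm.map_bijective (basisS S) _ (globTwist_bijective S hpS M)) 2

/-- `H¹(G_q, M) ≃ H¹(G_q, Hom(M′, (ℚ̄_q)ˣ))` -/
def e1 (q : S) : H1loc M q.1 →+
    (Csm (basisLoc q.1) (homRep (Rep.res (rloc q.1) (N M)) (Yloc q.1))).H 1 :=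
  (ψ1 S hpS M q).toAddMonoidHom.comp
    (AddEquiv.ofBijective (φ1 S M q) (φ1_bijective S M q)).symm.toAddMonoidHom

lemma e1_φ1 (q : S) (y : (Csm (basisLoc q.1) (Rep.res (rloc q.1) (toIntRep M))).H 1) :
    e1 S hpS M q (φ1 S M q y) = ψ1 S hpS M q y := by
  show ψ1 S hpS M q ((AddEquiv.ofBijective (φ1 S M q) (φ1_bijective S M q)).symm (φ1 S M q y)) = _
  congr 1
  exact (AddEquiv.ofBijective (φ1 S M q) (φ1_bijective S M q)).symm_apply_apply y

lemma e1_surjective (q : S) : Function.Surjective (e1 S hpS M q) := by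
  intro z
  obtain ⟨y, rfl⟩ := (ψ1_bijective S hpS M q).2 z
  exact ⟨φ1 S M q y, e1_φ1 S hpS M q y⟩

/-! ### The four-term sequence -/

/-- the map `a` of `Cpx/FourTerm` -/
def a0 (y : ∀ q : S, (Csm (basisLoc q.1) (homRep (Rep.res (rloc q.1) (N M)) (Yloc q.1))).H 1) :
    X S hpS M hM :=
  FourTerm.aFun (jsCoind S) (fun q : S => coarser_basisLoc S q.1) (pCS S) (R S hpS M hM).sm0
    (R S hpS M hM).sm1 (R S hpS M hM).d (R S hpS M hM).q
    (fun x => ((R S hpS M hM).exact _).2 ⟨x, rfl⟩) (fun q => h90_hom S q.1 (R S hpS M hM)) y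

lemma a0_add (y y' : ∀ q : S,
    (Csm (basisLoc q.1) (homRep (Rep.res (rloc q.1) (N M)) (Yloc q.1))).H 1) :
    a0 S hpS M hM (fun q => y q + y' q) = a0 S hpS M hM y + a0 S hpS M hM y' :=
  FourTerm.aFun_add _ _ _ _ _ _ _ _ _ y y'

lemma a0_zero : a0 S hpS M hM (fun _ => 0) = 0 :=
  FourTerm.aFun_zero _ _ _ _ _ _ _ _ _

/-- the map `δ` of `Cpx/FourTerm` -/
def δ0 : X S hpS M hM →ₗ[ℤ] (Csm (basisS S) (homRep (N M) (ESrep S))).H 2 :=
  FourTerm.δ (jsCoind S) (iES S) (pCS S) (R S hpS M hM).sm0 (R S hpS M hM).sm1 (R S hpS M hM).d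
    (R S hpS M hM).q (iES_injective S ⟨_, hpS⟩) (pCS_surjective S) (pCS_eq_zero_iff S)
    (R S hpS M hM).q_surj (R S hpS M hM).exact (isSm_ESrep S) (hextE S hpS M hM)

/-- `a : ∏_{q ∈ S} H¹(G_q, M) → Ext¹(M′, C_S)` -/
def a : H1locAll S M →+ X S hpS M hM where
  toFun y := a0 S hpS M hM (fun q => e1 S hpS M q (y q))
  map_zero' := by
    rw [← a0_zero S hpS M hM]
    congr 1
    funext q
    exact map_zero (e1 S hpS M q)
  map_add' y y' := by
    rw [← a0_add]
    congr 1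
    funext q
    exact map_add (e1 S hpS M q) (y q) (y' q)

lemma a_apply (y : H1locAll S M) :
    a S hpS M hM y = a0 S hpS M hM (fun q => e1 S hpS M q (y q)) := rfl

/-- `δ : Ext¹(M′, C_S) → H²(G_S, M)` -/
def δ : X S hpS M hM →+ H2S S M :=
  (φ2 S M).comp ((AddEquiv.ofBijective (ψ2 S hpS M)
    (ψ2_bijective S hpS M)).symm.toAddMonoidHom.comp (δ0 S hpS M hM).toAddMonoidHom)

lemma δ_eq_iff (ξ : X S hpS M hM) (x : (Csm (basisS S) (toIntRep M)).H 2) :
    δ S hpS M hM ξ = φ2 S M x ↔ δ0 S hpS M hM ξ = ψ2 S hpS M x := by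
  show φ2 S M ((AddEquiv.ofBijective (ψ2 S hpS M) (ψ2_bijective S hpS M)).symm
    (δ0 S hpS M hM ξ)) = φ2 S M x ↔ _
  rw [(φ2_bijective S M hM).1.eq_iff, AddEquiv.symm_apply_eq]
  rfl

/-- exactness at `Ext¹(M′, C_S)` -/
theorem exact_X (ξ : X S hpS M hM) :
    δ S hpS M hM ξ = 0 ↔ ∃ y, a S hpS M hM y = ξ := by
  have h0 : δ S hpS M hM ξ = 0 ↔ δ0 S hpS M hM ξ = 0 := by
    have := δ_eq_iff S hpS M hM ξ 0
    rwa [map_zero, map_zero] at this
  rw [h0]
  have h1 := FourTerm.exact_X' (jsCoind S) (fun q : S => coarser_basisLoc S q.1) (iES S) (pCS S)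
    (R S hpS M hM).sm0 (R S hpS M hM).sm1 (R S hpS M hM).d (R S hpS M hM).q
    (fun q => h90_hom S q.1 (R S hpS M hM))
    (iES_injective S ⟨_, hpS⟩) (pCS_surjective S) (pCS_eq_zero_iff S)
    (R S hpS M hM).q_surj (R S hpS M hM).exact (isSm_ESrep S) (hextE S hpS M hM)
    (fun q => isSm_Yloc q.1) (hextY S hpS M hM) ξ
  show FourTerm.δ _ _ _ _ _ _ _ _ _ _ _ _ _ _ ξ = 0 ↔ _
  rw [h1]
  constructor
  · rintro ⟨y0, hy0⟩
    choose y hy using fun q => e1_surjective S hpS M q (y0 q)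
    refine ⟨y, ?_⟩
    rw [a_apply, ← hy0]
    congr 1
    funext q
    exact hy q
  · rintro ⟨y, rfl⟩
    exact ⟨fun q => e1 S hpS M q (y q), rfl⟩

/-- exactness at `H²(G_S, M)` -/
theorem exact_H2 (x : H2S S M) :
    locAll2 S M x = 0 ↔ ∃ ξ, δ S hpS M hM ξ = x := by
  obtain ⟨x', rfl⟩ := (φ2_bijective S M hM).2 x
  have h1 : locAll2 S M (φ2 S M x') = 0 ↔
      ∀ q : S, (FourTerm.locE (jsCoind S) (fun q : S => coarser_basisLoc S q.1) (iES S) (N M)
        q).mapH 2 (ψ2 S hpS M x') = 0 := by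
    constructor
    · intro h q
      have h2 : loc2 S M q.1 (φ2 S M x') = 0 := congrFun h q
      rw [← φ2loc_resq] at h2
      have h3 : (resq S M q).mapH 2 x' = 0 := by
        apply (φ2loc_bijective S M hM q).1
        rw [h2, map_zero]
      show (FourTerm.locE _ _ _ _ q).mapH 2 ((Csm.map (basisS S) (globTwist S hpS M)).mapH 2 x') = 0
      rw [locE_globTwist, h3, map_zero]
    · intro h
      funext q
      show loc2 S M q.1 (φ2 S M x') = 0
      rw [← φ2loc_resq]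
      have h2 := h q
      have h2' : (FourTerm.locE (jsCoind S) (fun q : S => coarser_basisLoc S q.1) (iES S) (N M)
        q).mapH 2 ((Csm.map (basisS S) (globTwist S hpS M)).mapH 2 x') = 0 := h2
      rw [locE_globTwist] at h2'
      have h3 : (resq S M q).mapH 2 x' = 0 := by
        apply (ψ2loc_bijective S hpS M q).1
        rw [map_zero]
        exact h2'
      rw [h3, map_zero]
  rw [h1]
  have h2 := FourTerm.exact_H2 (jsCoind S) (fun q : S => coarser_basisLoc S q.1) (iES S) (pCS S)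
    (R S hpS M hM).sm0 (R S hpS M hM).sm1 (R S hpS M hM).d (R S hpS M hM).q
    (fun q => h90_hom S q.1 (R S hpS M hM))
    (iES_injective S ⟨_, hpS⟩) (pCS_surjective S) (pCS_eq_zero_iff S)
    (R S hpS M hM).q_surj (R S hpS M hM).exact (isSm_ESrep S) (hextE S hpS M hM)
    (fun q => isSm_Yloc q.1) (hextY S hpS M hM) (ψ2 S hpS M x')
  rw [h2]
  constructor
  · rintro ⟨ξ, hξ⟩
    exact ⟨ξ, (δ_eq_iff S hpS M hM ξ x').2 hξ⟩
  · rintro ⟨ξ, hξ⟩
    exact ⟨ξ, (δ_eq_iff S hpS M hM ξ x').1 hξ⟩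

end PT

end Fermat.Agent.S55lib
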