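/-
S55lib / GlobDual / H1Ident  (helper7).

For the two-term resolution `R : P₁ → P₀ → M′` of `PTHalf`, the identifications
  `θS : H²(FC R.d) ≃ H¹(G_S, M′)`,   `θq q : H²(FC (res_q R.d)) ≃ H¹(G_q, M′)`
(the right-hand arguments of helper8's pairing `α¹`) and their compatibility with localisation.
-/
import Fermat.Agent.S55lib.GlobDual.PTHalf
import Fermat.Agent.S55lib.Cpx.PairNat

set_option autoImplicit false

noncomputable section

namespace Fermat.Agent.S55lib

open groupCohomology ExtCitation Cpx CFDual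

namespace PT

variable (S : Finset Nat.Primes) {p : ℕ} [hp : Fact p.Prime]
  (hpS : (⟨p, hp.out⟩ : Nat.Primes) ∈ S)
  (M : Rep.{0} (ZMod p) GQ) [FiniteDimensional (ZMod p) M]
  (hM : Sm.IsSmooth (MonoidHom.id GQ) (LevelClass.unr S) M)

/-- the coarsening hypothesis of `Cpx/FourTerm` for `G_q → G_ℚ` -/
lemma hco : ∀ q : S, Csm.Coarser ((basisS S).comap (rloc q.1)) (basisLoc q.1) :=
  fun q => coarser_basisLoc S q.1

/-- `H¹(G_S, M′)` in the hub's model -/
def φ1S : (Csm (basisS S) (N M)).H 1 →+ H1S S (M.dualTwist (cycloChar p)) :=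
  (Sm.intH1 (MonoidHom.id GQ) (LevelClass.unr S) (M.dualTwist (cycloChar p))).comp
    (Csm.toSmH1 (MonoidHom.id GQ) (LevelClass.unr S) (N M)).toAddMonoidHom

lemma φ1S_bijective : Function.Bijective (φ1S S M) :=
  Sm.intH1_bijective.comp Csm.toSmH1_bijective

/-- restriction to `G_q` on the hub's cochains of `M′` -/
def resqN (q : S) : Cpx.Hom (Csm (basisS S) (N M))
    (Csm (basisLoc q.1) (Rep.res (rloc q.1) (N M))) :=
  Csm.resLevel (rloc q.1) (r := MonoidHom.id GQ) (r' := rloc q.1) (fun _ => rfl)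
    (𝓛 := LevelClass.unr S) (𝓛' := LevelClass.all) (fun _ h => h.1) (N M)

lemma φ1_resqN (q : S) (x : (Csm (basisS S) (N M)).H 1) :
    φ1 S (M.dualTwist (cycloChar p)) q ((resqN S M q).mapH 1 x) =
      loc1 S (M.dualTwist (cycloChar p)) q.1 (φ1S S M x) := by
  show Sm.intH1 (rloc q.1) LevelClass.all (Rep.res (rloc q.1) (M.dualTwist (cycloChar p)))
    (Csm.toSmH1 (rloc q.1) LevelClass.all (Rep.res (rloc q.1) (N M))
      ((resqN S M q).mapH 1 x)) = _
  rw [resqN, Csm.toSmH1_resLevel]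
  exact Sm.intH1_resH1 (rloc q.1) (r := MonoidHom.id GQ) (r' := rloc q.1) (fun _ => rfl)
    (𝓛 := LevelClass.unr S) (𝓛' := LevelClass.all) (fun _ h => h.1) _

lemma resC_eq_resqN (q : S) (x : (Csm (basisS S) (N M)).H 1) :
    (FourTerm.resC (hco S) (N M) q).mapH 1 x = (resqN S M q).mapH 1 x :=
  Cpx.Hom.mapH_congr (fun _ _ => rfl) 1 x

/-! ### The global identification -/

lemma hqd (x : (R S hpS M hM).P1) : (R S hpS M hM).q.hom ((R S hpS M hM).d.hom x) = 0 :=
  ((R S hpS M hM).exact _).2 ⟨x, rfl⟩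

lemma sesS : Cpx.IsSES (Csm.map (basisS S) (R S hpS M hM).d) (Csm.map (basisS S) (R S hpS M hM).q) :=
  Csm.map_isSES _ _ (R S hpS M hM).sm0 (R S hpS M hM).d_inj (R S hpS M hM).q_surj
    (R S hpS M hM).exact

/-- `H²(FC R.d) → H¹(G_S, M′)` on the hub's cohomology -/
def κS : (FC (basisS S) (R S hpS M hM).d).H 2 →ₗ[ℤ] (Csm (basisS S) (N M)).H 1 :=
  Fib.toCokerH (Csm.map (basisS S) (R S hpS M hM).d) (Csm.map (basisS S) (R S hpS M hM).q)
    (fun _ x => Subtype.ext (funext fun g => hqd S hpS M hM (x.1 g))) 1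

lemma κS_bijective : Function.Bijective (κS S hpS M hM) :=
  Fib.toCokerH_bijective _ _ (sesS S hpS M hM) 1

/-- `θS : H²(FC R.d) ≃ H¹(G_S, M′)` -/
def θS : (FC (basisS S) (R S hpS M hM).d).H 2 →+ H1S S (M.dualTwist (cycloChar p)) :=
  (φ1S S M).comp (κS S hpS M hM).toAddMonoidHom

lemma θS_bijective : Function.Bijective (θS S hpS M hM) :=
  (φ1S_bijective S M).comp (κS_bijective S hpS M hM)

/-! ### The local identifications -/

lemma sesq (q : S) : Cpx.IsSES (Csm.map (basisLoc q.1) (resHom (rloc q.1) (R S hpS M hM).d))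
    (Csm.map (basisLoc q.1) (resHom (rloc q.1) (R S hpS M hM).q)) :=
  Csm.map_isSES _ _ (isSm_res_basisLoc S q.1 (R S hpS M hM).sm0) (R S hpS M hM).d_inj
    (R S hpS M hM).q_surj (R S hpS M hM).exact

/-- `H²(FC (res_q R.d)) → H¹(G_q, M′)` on the hub's cohomology -/
def κq (q : S) : (FC (basisLoc q.1) (resHom (rloc q.1) (R S hpS M hM).d)).H 2 →ₗ[ℤ]
    (Csm (basisLoc q.1) (Rep.res (rloc q.1) (N M))).H 1 :=
  Fib.toCokerH (Csm.map (basisLoc q.1) (resHom (rloc q.1) (R S hpS M hM).d))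
    (Csm.map (basisLoc q.1) (resHom (rloc q.1) (R S hpS M hM).q))
    (fun _ x => Subtype.ext (funext fun g => hqd S hpS M hM (x.1 g))) 1

lemma κq_bijective (q : S) : Function.Bijective (κq S hpS M hM q) :=
  Fib.toCokerH_bijective _ _ (sesq S hpS M hM q) 1

/-- `θq q : H²(FC (res_q R.d)) ≃ H¹(G_q, M′)` -/
def θq (q : S) : (FC (basisLoc q.1) (resHom (rloc q.1) (R S hpS M hM).d)).H 2 →+
    H1loc (M.dualTwist (cycloChar p)) q.1 :=
  (φ1 S (M.dualTwist (cycloChar p)) q).comp (κq S hpS M hM q).toAddMonoidHom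

lemma θq_bijective (q : S) : Function.Bijective (θq S hpS M hM q) :=
  (φ1_bijective S (M.dualTwist (cycloChar p)) q).comp (κq_bijective S hpS M hM q)

/-- **compatibility of the identifications with localisation** -/
theorem θq_resFC (q : S) (x : (FC (basisS S) (R S hpS M hM).d).H 2) :
    θq S hpS M hM q ((FourTerm.resFC (hco S) (R S hpS M hM).d q).mapH 2 x) =
      loc1 S (M.dualTwist (cycloChar p)) q.1 (θS S hpS M hM x) := by
  have h := FourTerm.toCokerH_resFC (hco S) (R S hpS M hM).d (R S hpS M hM).q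
    (hqd S hpS M hM) q x
  refine (congrArg (φ1 S (M.dualTwist (cycloChar p)) q) h).trans ?_
  rw [resC_eq_resqN, φ1_resqN]
  rfl

end PT

end Fermat.Agent.S55lib
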