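/-
S55lib / GlobDual / QZ  (helper7).

Pure algebra for the pairing half of Poitou–Tate: the embedding `ℤ/p → ℚ/ℤ`, and the passage from a
perfect pairing `X × F → T` (`T` with an "invariant" `I : T → ℚ/ℤ` which is an isomorphism on `p`-torsion,
`F ≃ H` killed by `p`) to a bijection `X ≃ Hom(H, ℤ/p)`.
-/
import Mathlib

set_option autoImplicit false

noncomputable section

namespace Fermat.Agent.S55lib

namespace PT

variable (p : ℕ) [hp : Fact p.Prime]

/-- `ℤ/p → ℚ/ℤ`, `k ↦ k/p` -/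
def qzEmb : ZMod p →+ AddCircle (1 : ℚ) :=
  ZMod.lift p ⟨zmultiplesHom _ ((((1 : ℚ) / p : ℚ)) : AddCircle (1 : ℚ)), by
    have hn : (p : ℚ) ≠ 0 := Nat.cast_ne_zero.mpr hp.out.ne_zero
    rw [zmultiplesHom_apply, natCast_zsmul, ← AddCircle.coe_nsmul, nsmul_eq_mul,
      mul_one_div_cancel hn]
    exact AddCircle.coe_period 1⟩

lemma qzEmb_intCast (k : ℤ) :
    qzEmb p (k : ZMod p) = (((k : ℚ) / p : ℚ) : AddCircle (1 : ℚ)) := by
  rw [qzEmb, ZMod.lift_coe, zmultiplesHom_apply, ← AddCircle.coe_zsmul, zsmul_eq_mul]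
  congr 1
  ring

lemma qzEmb_one : qzEmb p 1 = (((1 : ℚ) / p : ℚ) : AddCircle (1 : ℚ)) := by
  have h := qzEmb_intCast p 1
  rwa [Int.cast_one, Int.cast_one] at h

lemma qzEmb_injective : Function.Injective (qzEmb p) := by
  rw [injective_iff_map_eq_zero]
  intro z hz
  obtain ⟨k, rfl⟩ := ZMod.intCast_surjective z
  have hn : (p : ℚ) ≠ 0 := Nat.cast_ne_zero.mpr hp.out.ne_zero
  rw [qzEmb_intCast, AddCircle.coe_eq_zero_iff] at hz
  obtain ⟨j, hj⟩ := hz
  rw [ZMod.intCast_zmod_eq_zero_iff_dvd]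
  refine ⟨j, ?_⟩
  have : (k : ℚ) = p * j := by
    rw [zsmul_eq_mul, mul_one] at hj
    rw [hj]; field_simp
  exact_mod_cast this

lemma exists_qzEmb_eq (t : AddCircle (1 : ℚ)) (ht : p • t = 0) : ∃ z, qzEmb p z = t := by
  obtain ⟨x, rfl⟩ := QuotientAddGroup.mk_surjective t
  have hn : (p : ℚ) ≠ 0 := Nat.cast_ne_zero.mpr hp.out.ne_zero
  have h1 : ((p • x : ℚ) : AddCircle (1 : ℚ)) = 0 := by
    rw [AddCircle.coe_nsmul]
    exact ht
  rw [AddCircle.coe_eq_zero_iff] at h1
  obtain ⟨n, hn'⟩ := h1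
  refine ⟨(n : ZMod p), ?_⟩
  rw [qzEmb_intCast]
  have : x = (n : ℚ) / p := by
    rw [zsmul_eq_mul, mul_one, nsmul_eq_mul] at hn'
    rw [hn']; field_simp
  rw [this]

lemma nsmul_qzEmb (z : ZMod p) : p • qzEmb p z = 0 := by
  rw [← map_nsmul]
  have : p • z = 0 := by
    rw [nsmul_eq_mul, ZMod.natCast_self, zero_mul]
  rw [this, map_zero]

variable {p}

lemma liftZ_aux {H : Type*} [AddCommGroup H] (hH : ∀ h : H, p • h = 0)
    (φ : H →+ AddCircle (1 : ℚ)) (h : H) : ∃ z, qzEmb p z = φ h :=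
  exists_qzEmb_eq p (φ h) (by rw [← map_nsmul, hH, map_zero])

/-- an additive map to `ℚ/ℤ` on a group killed by `p` factors through `ℤ/p` -/
def liftZ {H : Type*} [AddCommGroup H] (hH : ∀ h : H, p • h = 0) (φ : H →+ AddCircle (1 : ℚ)) :
    H →+ ZMod p where
  toFun h := Classical.choose (liftZ_aux hH φ h)
  map_zero' := by
    apply qzEmb_injective p
    rw [Classical.choose_spec (liftZ_aux hH φ 0), map_zero, map_zero]
  map_add' a b := by
    apply qzEmb_injective p
    rw [Classical.choose_spec (liftZ_aux hH φ (a + b)), map_add, map_add,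
      Classical.choose_spec (liftZ_aux hH φ a), Classical.choose_spec (liftZ_aux hH φ b)]

lemma qzEmb_liftZ {H : Type*} [AddCommGroup H] (hH : ∀ h : H, p • h = 0)
    (φ : H →+ AddCircle (1 : ℚ)) (h : H) : qzEmb p (liftZ hH φ h) = φ h :=
  Classical.choose_spec (liftZ_aux hH φ h)

/-- **From a pairing to a map to the `ℤ/p`-dual**, injective / surjective if the pairing is. -/
theorem exists_dual_of_pairing {X F T H : Type*} [AddCommGroup X] {mX : Module ℤ X} [AddCommGroup F]
    {mF : Module ℤ F} [AddCommGroup T] {mT : Module ℤ T} [AddCommGroup H]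
    (A : X →ₗ[ℤ] F →ₗ[ℤ] T) (θ : F →+ H) (hθ : Function.Bijective θ)
    (hH : ∀ h : H, p • h = 0) (I : T →+ AddCircle (1 : ℚ))
    (hI : ∀ t, p • t = 0 → I t = 0 → t = 0) (hI1 : ∃ t, p • t = 0 ∧ I t = qzEmb p 1) :
    ∃ α : X →+ (H →+ ZMod p), (Function.Injective A → Function.Injective α) ∧
      (Function.Surjective A → Function.Surjective α) ∧
      ∀ ξ f, qzEmb p (α ξ (θ f)) = I (A ξ f) := by
  let e : F ≃+ H := AddEquiv.ofBijective θ hθ
  have he : ∀ f, e f = θ f := fun _ => rfl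
  have hF : ∀ f : F, p • f = 0 := fun f => by
    apply hθ.1
    rw [map_nsmul, hH, map_zero]
  -- the map
  let α0 : X → (H →+ ZMod p) := fun ξ =>
    liftZ hH (I.comp ((A ξ).toAddMonoidHom.comp e.symm.toAddMonoidHom))
  have hα0 : ∀ ξ f, qzEmb p (α0 ξ (θ f)) = I (A ξ f) := fun ξ f => by
    rw [qzEmb_liftZ]
    show I (A ξ (e.symm (θ f))) = _
    rw [← he, e.symm_apply_apply]
  have hα0' : ∀ ξ h, qzEmb p (α0 ξ h) = I (A ξ (e.symm h)) := fun ξ h => by
    rw [qzEmb_liftZ]
    rfl
  let α : X →+ (H →+ ZMod p) :=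
    { toFun := α0
      map_zero' := by
        ext h
        apply qzEmb_injective p
        rw [hα0', map_zero, LinearMap.zero_apply, map_zero, AddMonoidHom.zero_apply, map_zero]
      map_add' := fun ξ ξ' => by
        ext h
        apply qzEmb_injective p
        rw [AddMonoidHom.add_apply, map_add, hα0', hα0', hα0', map_add, LinearMap.add_apply,
          map_add] }
  refine ⟨α, ?_, ?_, hα0⟩
  · -- injectivity
    intro hA
    rw [injective_iff_map_eq_zero]
    intro ξ hξ
    apply hA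
    rw [map_zero]
    apply LinearMap.ext
    intro f
    rw [LinearMap.zero_apply]
    apply hI
    · rw [← map_nsmul, hF, map_zero]
    · rw [← hα0 ξ f]
      have : α0 ξ = 0 := hξ
      rw [this, AddMonoidHom.zero_apply, map_zero]
  · -- surjectivity
    intro hA g
    obtain ⟨t1, ht1, hIt1⟩ := hI1
    let σ : ZMod p →+ T := ZMod.lift p ⟨zmultiplesHom T t1, by
      rw [zmultiplesHom_apply, natCast_zsmul, ht1]⟩
    have hσ : ∀ z, I (σ z) = qzEmb p z := by
      intro z
      obtain ⟨k, rfl⟩ := ZMod.intCast_surjective z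
      show I (ZMod.lift p _ (k : ZMod p)) = _
      rw [ZMod.lift_coe, zmultiplesHom_apply, map_zsmul, hIt1, ← map_zsmul]
      congr 1
      rw [zsmul_eq_mul, mul_one]
    let ψ0 : F →+ T := σ.comp (g.comp θ)
    let ψ : F →ₗ[ℤ] T :=
      { toFun := ψ0
        map_add' := map_add ψ0
        map_smul' := fun c f => by
          rw [RingHom.id_apply]
          have h2 := int_smul_eq_zsmul mT c (ψ0 f)
          exact (congrArg ψ0 (int_smul_eq_zsmul mF c f)).trans
            ((map_zsmul ψ0 c f).trans h2.symm) }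
    obtain ⟨ξ, hξ⟩ := hA ψ
    refine ⟨ξ, ?_⟩
    ext h
    apply qzEmb_injective p
    obtain ⟨f, rfl⟩ := hθ.2 h
    show qzEmb p (α0 ξ (θ f)) = _
    rw [hα0, hξ]
    exact hσ _

/-! ### The `p`-torsion-only version -/

variable (p) in
/-- the `p`-torsion subgroup -/
def pTor (T : Type*) [AddCommGroup T] : AddSubgroup T where
  carrier := {t | p • t = 0}
  zero_mem' := smul_zero p
  add_mem' := fun {a b} ha hb => by
    show p • (a + b) = 0
    rw [smul_add, ha, hb, add_zero]
  neg_mem' := fun {a} ha => by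
    show p • (-a) = 0
    rw [smul_neg, ha, neg_zero]

omit hp in
lemma mem_pTor {T : Type*} [AddCommGroup T] {t : T} : t ∈ pTor p T ↔ p • t = 0 := Iff.rfl

/-- **From a pairing to a map to the `ℤ/p`-dual**, with an identification of the `p`-torsion of the target
with `ℤ/p`; injective / surjective if the pairing is. -/
theorem exists_dual_of_pairing' {X F T H : Type*} [AddCommGroup X] {mX : Module ℤ X}
    [AddCommGroup F] {mF : Module ℤ F} [AddCommGroup T] {mT : Module ℤ T} [AddCommGroup H]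
    (A : X →ₗ[ℤ] F →ₗ[ℤ] T) (θ : F →+ H) (hθ : Function.Bijective θ)
    (hH : ∀ h : H, p • h = 0) (ι : pTor p T →+ ZMod p) (hι : Function.Bijective ι) :
    ∃ α : X →+ (H →+ ZMod p), (Function.Injective A → Function.Injective α) ∧
      (Function.Surjective A → Function.Surjective α) ∧
      ∀ ξ f (h : p • A ξ f = 0), α ξ (θ f) = ι ⟨A ξ f, h⟩ := by
  let e : F ≃+ H := AddEquiv.ofBijective θ hθ
  have he : ∀ f, e f = θ f := fun _ => rfl
  have hF : ∀ f : F, p • f = 0 := fun f => by
    apply hθ.1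
    rw [map_nsmul, hH, map_zero]
  have hA : ∀ ξ f, p • A ξ f = 0 := fun ξ f => by
    rw [← map_nsmul, hF, map_zero]
  -- the map
  let α0 : X → (H →+ ZMod p) := fun ξ =>
    ι.comp (((A ξ).toAddMonoidHom.comp e.symm.toAddMonoidHom).codRestrict (pTor p T)
      (fun h => hA ξ (e.symm h)))
  have hα0' : ∀ ξ h, α0 ξ h = ι ⟨A ξ (e.symm h), hA ξ (e.symm h)⟩ := fun ξ h => rfl
  have hα0 : ∀ ξ f (h : p • A ξ f = 0), α0 ξ (θ f) = ι ⟨A ξ f, h⟩ := fun ξ f h => by
    rw [hα0']
    congr 1
    apply Subtype.ext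
    show A ξ (e.symm (θ f)) = A ξ f
    rw [← he, e.symm_apply_apply]
  let α : X →+ (H →+ ZMod p) :=
    { toFun := α0
      map_zero' := by
        ext h
        rw [hα0', AddMonoidHom.zero_apply]
        have : (⟨A 0 (e.symm h), hA 0 (e.symm h)⟩ : pTor p T) = 0 := by
          apply Subtype.ext
          show A 0 (e.symm h) = 0
          rw [map_zero, LinearMap.zero_apply]
        rw [this, map_zero]
      map_add' := fun ξ ξ' => by
        ext h
        rw [AddMonoidHom.add_apply, hα0', hα0', hα0', ← map_add]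
        congr 1
        apply Subtype.ext
        show A (ξ + ξ') (e.symm h) = A ξ (e.symm h) + A ξ' (e.symm h)
        rw [map_add, LinearMap.add_apply] }
  refine ⟨α, ?_, ?_, hα0⟩
  · -- injectivity
    intro hAinj
    rw [injective_iff_map_eq_zero]
    intro ξ hξ
    apply hAinj
    rw [map_zero]
    apply LinearMap.ext
    intro f
    rw [LinearMap.zero_apply]
    have h1 : α0 ξ (θ f) = 0 := by
      have : α0 ξ = 0 := hξ
      rw [this, AddMonoidHom.zero_apply]
    rw [hα0 ξ f (hA ξ f)] at h1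
    have h2 := hι.1 (h1.trans (map_zero ι).symm)
    exact congrArg Subtype.val h2
  · -- surjectivity
    intro hAsurj g
    let ιe : pTor p T ≃+ ZMod p := AddEquiv.ofBijective ι hι
    let ψ0 : F →+ T := (pTor p T).subtype.comp (ιe.symm.toAddMonoidHom.comp (g.comp θ))
    let ψ : F →ₗ[ℤ] T :=
      { toFun := ψ0
        map_add' := map_add ψ0
        map_smul' := fun c f => by
          rw [RingHom.id_apply]
          have h2 := int_smul_eq_zsmul mT c (ψ0 f)
          exact (congrArg ψ0 (int_smul_eq_zsmul mF c f)).trans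
            ((map_zsmul ψ0 c f).trans h2.symm) }
    obtain ⟨ξ, hξ⟩ := hAsurj ψ
    refine ⟨ξ, ?_⟩
    ext h
    obtain ⟨f, rfl⟩ := hθ.2 h
    show α0 ξ (θ f) = _
    rw [hα0 ξ f (hA ξ f)]
    have h3 : (⟨A ξ f, hA ξ f⟩ : pTor p T) = ιe.symm (g (θ f)) := by
      apply Subtype.ext
      show A ξ f = ψ f
      rw [hξ]
    rw [h3]
    exact ιe.apply_symm_apply _

end PT

end Fermat.Agent.S55lib
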