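/-
S55lib / GlobDual / PTPair  (helper7).

The pairing half of helper4's `PTInput p S M`, and the assembly
  `K4 (global, for CSfull S)` + `K4 (local, for every q ∈ S)` + invariant maps with the sum formula
    ⟹ `Nonempty (PTInput p S M)`.
-/
import Fermat.Agent.S55lib.GlobDual.H1Ident
import Fermat.Agent.S55lib.GlobDual.QZ
import Fermat.Agent.S55lib.CFDual.Hyp
import Fermat.Agent.S55lib.Iface.ClassCompare

set_option autoImplicit false

noncomputable section

namespace Fermat.Agent.S55lib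

open groupCohomology ExtCitation Cpx CFDual CategoryTheory

namespace PT

/-- the projection `J_S → CSfull S` -/
def πJ (S : Finset Nat.Primes) : JSrep S ⟶ CSfull S := pCS S ≫ Fermat.Agent.S55lib.cmp S

/-- localisation `C(G_S, J_S) → C(G_q, ℚ̄_qˣ)` (Shapiro + change of topology) -/
def locJ (S : Finset Nat.Primes) (q : S) :
    Cpx.Hom (Csm (basisS S) (JSrep S)) (Csm (basisLoc q.1) (Yloc q.1)) :=
  FourTerm.locJ (jsCoind S) (hco S) q

/-- **The invariant data** needed for the pairing half of Poitou–Tate, on `p`-torsion only: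
identifications `H²(G_S, C_S)[p] ≃ ℤ/p`, `H²(G_q, ℚ̄_qˣ)[p] ≃ ℤ/p` and the sum formula
`ι_S ∘ (J_S → C_S)_* = ∑_q ι_q ∘ loc_q` on `H²(G_S, J_S)[p]`. -/
structure InvData (S : Finset Nat.Primes) (p : ℕ) [Fact p.Prime] where
  /-- the global invariant on `p`-torsion -/
  ιS : pTor p (Hsm (basisS S) (CSfull S) 2) →+ ZMod p
  /-- the local invariants on `p`-torsion -/
  ιq : ∀ q : S, pTor p (Hsm (basisLoc q.1) (Yloc q.1) 2) →+ ZMod p
  ιS_bij : Function.Bijective ιS
  ιq_bij : ∀ q, Function.Bijective (ιq q)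
  sum : ∀ z : Hsm (basisS S) (JSrep S) 2, p • z = 0 →
    ∀ (h1 : (Csm.map (basisS S) (πJ S)).mapH 2 z ∈ pTor p (Hsm (basisS S) (CSfull S) 2))
      (h2 : ∀ q : S, (locJ S q).mapH 2 z ∈ pTor p (Hsm (basisLoc q.1) (Yloc q.1) 2)),
      ιS ⟨_, h1⟩ = ∑ q : S, ιq q ⟨_, h2 q⟩

variable (S : Finset Nat.Primes) {p : ℕ} [hp : Fact p.Prime]
  (hpS : (⟨p, hp.out⟩ : Nat.Primes) ∈ S)
  (M : Rep.{0} (ZMod p) GQ) [FiniteDimensional (ZMod p) M]
  (hM : Sm.IsSmooth (MonoidHom.id GQ) (LevelClass.unr S) M)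

/-! ### Instances for the statement of K4 -/

lemma finite_toInt {G : Type} [Group G] (P : Rep.{0} ℤ G) (h : @Module.Finite ℤ P _ _ P.hV2) :
    Module.Finite ℤ P := by
  have e : P.hV2 = AddCommGroup.toIntModule _ := Subsingleton.elim _ _
  rw [e] at h
  exact h

lemma free_toInt {G : Type} [Group G] (P : Rep.{0} ℤ G) (h : @Module.Free ℤ P _ _ P.hV2) :
    Module.Free ℤ P := by
  have e : P.hV2 = AddCommGroup.toIntModule _ := Subsingleton.elim _ _
  rw [e] at h
  exact h

/-- composition of coefficient maps on cohomology -/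
lemma map_comp_mapH {G : Type} [Group G] (𝒰 : OpenBasis G) {A B C : Rep.{0} ℤ G} (f : A ⟶ B)
    (g : B ⟶ C) (n : ℕ) (x : Hsm 𝒰 A n) :
    (Csm.map 𝒰 g).mapH n ((Csm.map 𝒰 f).mapH n x) = (Csm.map 𝒰 (f ≫ g)).mapH n x := by
  obtain ⟨x0, hx0, rfl⟩ := (Csm 𝒰 A).exists_rep x
  rfl

/-! ### The global pairing -/

/-- the global pairing `Ext¹(M′, C_S) × H²(FC R.d) → H²(G_S, CSfull S)` -/
def AS := alpha1Cmp (basisS S) (R S hpS M hM).d (Fermat.Agent.S55lib.cmp S)

lemma AS_apply (ξ : X S hpS M hM) (x : (FC (basisS S) (R S hpS M hM).d).H 2) :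
    AS S hpS M hM ξ x = (Csm.map (basisS S) (Fermat.Agent.S55lib.cmp S)).mapH 2
      (alpha1 (basisS S) (R S hpS M hM).d (CSrep S) ξ x) :=
  alpha1Cmp_apply (basisS S) (R S hpS M hM).d (Fermat.Agent.S55lib.cmp S) ξ x

lemma AS_bijective (hK4 : K4Statement (basisS S) p (CSfull S)) :
    Function.Bijective (AS S hpS M hM) := by
  have i0 := finite_toInt _ (R S hpS M hM).fin0
  have i1 := finite_toInt _ (R S hpS M hM).fin1
  have j0 := free_toInt _ (R S hpS M hM).free0
  have j1 := free_toInt _ (R S hpS M hM).free1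
  have h1 := (hK4 (R S hpS M hM).P0 (R S hpS M hM).P1 (R S hpS M hM).sm0 (R S hpS M hM).sm1
    (R S hpS M hM).d (R S hpS M hM).d_inj (R_pdiv S hpS M hM)).1
  have h2 := ExtC_cmp_bijective' S hp.out hpS (R S hpS M hM).P0 (R S hpS M hM).P1
    (R S hpS M hM).sm0 (R S hpS M hM).sm1 (R S hpS M hM).d (R S hpS M hM).d_inj
    (R_pdiv S hpS M hM) 1
  exact alpha1Cmp_bijective (basisS S) (R S hpS M hM).d (Fermat.Agent.S55lib.cmp S) h1 h2

lemma nsmul_H1S (h : H1S S (M.dualTwist (cycloChar p))) : p • h = 0 :=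
  ZModModule.char_nsmul_eq_zero p h

lemma nsmul_H1loc (q : S) (h : H1loc (M.dualTwist (cycloChar p)) q.1) : p • h = 0 :=
  ZModModule.char_nsmul_eq_zero p h

/-- the global duality map `α` -/
theorem exists_α (I : InvData S p) (hK4 : K4Statement (basisS S) p (CSfull S)) :
    ∃ α : X S hpS M hM →+ (H1S S (M.dualTwist (cycloChar p)) →+ ZMod p),
      Function.Bijective α ∧
      ∀ ξ x (h : p • AS S hpS M hM ξ x = 0),
        α ξ (θS S hpS M hM x) = I.ιS ⟨AS S hpS M hM ξ x, h⟩ := by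
  obtain ⟨α, h1, h2, h3⟩ := exists_dual_of_pairing' (AS S hpS M hM) (θS S hpS M hM)
    (θS_bijective S hpS M hM) (nsmul_H1S S M) I.ιS I.ιS_bij
  have hb := AS_bijective S hpS M hM hK4
  exact ⟨α, ⟨h1 hb.1, h2 hb.2⟩, h3⟩

/-! ### The local pairings -/

/-- the local pairing `H¹(G_q, Hom(M′, ℚ̄_qˣ)) × H²(FC (res_q R.d)) → H²(G_q, ℚ̄_qˣ)` -/
def Aq (q : S) := FourTerm.alpha1Oc (fun q : S => rloc q.1) (R S hpS M hM).d (R S hpS M hM).q
  (hqd S hpS M hM) (fun q : S => basisLoc q.1) (fun q : S => Yloc q.1) q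

lemma Aq_bijective (q : S) (hK4q : K4Statement (basisLoc q.1) p (Yloc q.1)) :
    Function.Bijective (Aq S hpS M hM q) := by
  have f0 : @Module.Finite ℤ (Rep.res (rloc q.1) (R S hpS M hM).P0) _ _
      (Rep.res (rloc q.1) (R S hpS M hM).P0).hV2 := (R S hpS M hM).fin0
  have f1 : @Module.Finite ℤ (Rep.res (rloc q.1) (R S hpS M hM).P1) _ _
      (Rep.res (rloc q.1) (R S hpS M hM).P1).hV2 := (R S hpS M hM).fin1
  have g0 : @Module.Free ℤ (Rep.res (rloc q.1) (R S hpS M hM).P0) _ _
      (Rep.res (rloc q.1) (R S hpS M hM).P0).hV2 := (R S hpS M hM).free0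
  have g1 : @Module.Free ℤ (Rep.res (rloc q.1) (R S hpS M hM).P1) _ _
      (Rep.res (rloc q.1) (R S hpS M hM).P1).hV2 := (R S hpS M hM).free1
  have i0 := finite_toInt _ f0
  have i1 := finite_toInt _ f1
  have j0 := free_toInt _ g0
  have j1 := free_toInt _ g1
  have h1 := (hK4q (Rep.res (rloc q.1) (R S hpS M hM).P0) (Rep.res (rloc q.1) (R S hpS M hM).P1)
    (isSm_res_basisLoc S q.1 (R S hpS M hM).sm0) (isSm_res_basisLoc S q.1 (R S hpS M hM).sm1)
    (resHom (rloc q.1) (R S hpS M hM).d) (R S hpS M hM).d_inj (R_pdiv S hpS M hM)).1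
  have h2 := FourTerm.ocY_bijective (hco S) (R S hpS M hM).sm0 (R S hpS M hM).d (R S hpS M hM).q
    (R S hpS M hM).q_surj (R S hpS M hM).exact (fun q : S => isSm_Yloc q.1)
    (hextY S hpS M hM) q 1
  exact FourTerm.alpha1Oc_bijective (R S hpS M hM).d (R S hpS M hM).q (hqd S hpS M hM) q h1 h2

/-- the local duality maps -/
theorem exists_β (I : InvData S p) (q : S) (hK4q : K4Statement (basisLoc q.1) p (Yloc q.1)) :
    ∃ β : (Csm (basisLoc q.1) (homRep (Rep.res (rloc q.1) (N M)) (Yloc q.1))).H 1 →+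
        (H1loc (M.dualTwist (cycloChar p)) q.1 →+ ZMod p),
      Function.Surjective β ∧
      ∀ y x (h : p • Aq S hpS M hM q y x = 0),
        β y (θq S hpS M hM q x) = I.ιq q ⟨Aq S hpS M hM q y x, h⟩ := by
  obtain ⟨β, -, h2, h3⟩ := exists_dual_of_pairing' (Aq S hpS M hM q) (θq S hpS M hM q)
    (θq_bijective S hpS M hM q) (nsmul_H1loc S M q) (I.ιq q) (I.ιq_bij q)
  exact ⟨β, h2 (Aq_bijective S hpS M hM q hK4q).2, h3⟩

/-! ### Assembly -/

/-- evaluation `∏_q H¹(G_q, M′) → H¹(G_q, M′)` -/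
def evq (q : S) : H1locAll S (M.dualTwist (cycloChar p)) →+ H1loc (M.dualTwist (cycloChar p)) q.1 where
  toFun x := x q
  map_zero' := rfl
  map_add' _ _ := rfl

/-- the inclusion of a factor `H¹(G_q, M′) → ∏_q H¹(G_q, M′)` -/
def sgq (q : S) : H1loc (M.dualTwist (cycloChar p)) q.1 →+ H1locAll S (M.dualTwist (cycloChar p)) :=
  @AddMonoidHom.single S (fun q : S => H1loc (M.dualTwist (cycloChar p)) q.1) _
    (fun _ => inferInstance) q

lemma sum_sgq (x : H1locAll S (M.dualTwist (cycloChar p))) : ∑ q : S, sgq S M q (x q) = x :=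
  @Finset.univ_sum_single S _ (fun q : S => H1loc (M.dualTwist (cycloChar p)) q.1)
    (fun _ => inferInstance) _ x

include hpS hM in
/-- **The pairing half**: `K4` (global for `CSfull S`, local for all `q ∈ S`) and the invariant maps with the
sum formula give `PTInput p S M`. -/
theorem nonempty_PTInput (I : InvData S p) (hK4 : K4Statement (basisS S) p (CSfull S))
    (hK4q : ∀ q : S, K4Statement (basisLoc q.1) p (Yloc q.1)) : Nonempty (PTInput p S M) := by
  obtain ⟨α, hαb, hα⟩ := exists_α S hpS M hM I hK4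
  choose β hβs hβ using fun q : S => exists_β S hpS M hM I q (hK4q q)
  let π : H1locAll S M →+ (H1locAll S (M.dualTwist (cycloChar p)) →+ ZMod p) :=
    { toFun := fun y => ∑ q : S, (β q (e1 S hpS M q (y q))).comp (evq S M q)
      map_zero' := by
        apply Finset.sum_eq_zero
        intro q _
        have h0 : (0 : H1locAll S M) q = 0 := rfl
        rw [h0, map_zero, map_zero, AddMonoidHom.zero_comp]
      map_add' := fun y y' => by
        rw [← Finset.sum_add_distrib]
        apply Finset.sum_congr rfl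
        intro q _
        have h0 : (y + y') q = y q + y' q := rfl
        rw [h0, map_add, map_add, AddMonoidHom.add_comp] }
  have hπ : ∀ y x, π y x = ∑ q : S, β q (e1 S hpS M q (y q)) (x q) := fun y x => by
    show (∑ q : S, (β q (e1 S hpS M q (y q))).comp (evq S M q)) x = _
    rw [AddMonoidHom.finsetSum_apply]
    rfl
  refine ⟨{ X := X S hpS M hM
            grp := inferInstance
            a := a S hpS M hM
            δ := δ S hpS M hM
            α := α
            π := π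
            exact_X := exact_X S hpS M hM
            exact_H2 := exact_H2 S hpS M hM
            α_bijective := hαb
            π_surjective := ?_
            compat := ?_ }⟩
  · -- surjectivity of `π`
    intro f
    choose y0 hy0 using fun q : S => hβs q (f.comp (sgq S M q))
    choose y hy using fun q : S => e1_surjective S hpS M q (y0 q)
    refine ⟨y, ?_⟩
    ext x
    rw [hπ]
    have h1 : ∀ q : S, β q (e1 S hpS M q (y q)) (x q) = f (sgq S M q (x q)) := fun q => by
      rw [hy q, hy0 q]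
      rfl
    rw [Finset.sum_congr rfl (fun q _ => h1 q), ← map_sum, sum_sgq]
  · -- compatibility
    intro y x'
    obtain ⟨x, rfl⟩ := (θS_bijective S hpS M hM).2 x'
    have hx : p • x = 0 := by
      apply (θS_bijective S hpS M hM).1
      rw [map_nsmul, nsmul_H1S, map_zero]
    obtain ⟨z, hz1, hz2, hz3⟩ := FourTerm.alpha1_aFun (jsCoind S) (hco S) (pCS S)
      (R S hpS M hM).sm0 (R S hpS M hM).sm1 (R S hpS M hM).d (R S hpS M hM).q (hqd S hpS M hM)
      (fun q => h90_hom S q.1 (R S hpS M hM)) (fun q => e1 S hpS M q (y q)) x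
    have hz : p • z = 0 := hz3 p hx
    have ha : a S hpS M hM y = FourTerm.aFun (jsCoind S) (hco S) (pCS S) (R S hpS M hM).sm0
        (R S hpS M hM).sm1 (R S hpS M hM).d (R S hpS M hM).q (hqd S hpS M hM)
        (fun q => h90_hom S q.1 (R S hpS M hM)) (fun q => e1 S hpS M q (y q)) := rfl
    have e1' : AS S hpS M hM (a S hpS M hM y) x = (Csm.map (basisS S) (πJ S)).mapH 2 z := by
      rw [AS_apply, ha, hz1, map_comp_mapH]
      rfl
    have hAS : p • AS S hpS M hM (a S hpS M hM y) x = 0 := by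
      rw [← map_nsmul, hx, map_zero]
    have h1 : (Csm.map (basisS S) (πJ S)).mapH 2 z ∈ pTor p (Hsm (basisS S) (CSfull S) 2) := by
      rw [mem_pTor, ← map_nsmul, hz, map_zero]
    have h2 : ∀ q : S, (locJ S q).mapH 2 z ∈ pTor p (Hsm (basisLoc q.1) (Yloc q.1) 2) :=
      fun q => by rw [mem_pTor, ← map_nsmul, hz, map_zero]
    rw [hα _ _ hAS, hπ]
    have e2 : (⟨AS S hpS M hM (a S hpS M hM y) x, hAS⟩ :
        pTor p (Hsm (basisS S) (CSfull S) 2)) = ⟨_, h1⟩ := Subtype.ext e1'
    rw [e2, I.sum z hz h1 h2]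
    apply Finset.sum_congr rfl
    intro q _
    have e3 : Aq S hpS M hM q (e1 S hpS M q (y q))
        ((FourTerm.resFC (hco S) (R S hpS M hM).d q).mapH 2 x) = (locJ S q).mapH 2 z :=
      (hz2 q).symm
    have hAq : p • Aq S hpS M hM q (e1 S hpS M q (y q))
        ((FourTerm.resFC (hco S) (R S hpS M hM).d q).mapH 2 x) = 0 := by
      rw [e3]
      exact h2 q
    rw [locAll1_apply, ← θq_resFC, hβ q _ _ hAq]
    congr 1
    exact Subtype.ext e3.symm

end PT

end Fermat.Agent.S55lib
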