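/-
S55lib / GlobDual / InvFree  (helper7).

The invariant data `PT.InvData S p` of the pairing half from the "invariant-free" facts:
  (T)   `H²(G_S, CSfull S)[p]` has at most `p` elements;
  (NT)  `H²(G_q, ℚ̄_qˣ)[p] ≠ 0` for `q ∈ S`;
  (III) every `w ∈ H²(G_q, ℚ̄_qˣ)[p]` is the `q`-component of a class `z ∈ H²(G_S, J_S)` supported at `q`, and
        `w ≠ 0 ⟹ (J_S → C_S)_* z ≠ 0`.
Uses Shapiro injectivity on `H²` (`SmCoind.sh_H2_injective`, `coarsen_H2_injective`, Hilbert 90).
-/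
import Fermat.Agent.S55lib.GlobDual.PTPair

set_option autoImplicit false

noncomputable section

namespace Fermat.Agent.S55lib

open groupCohomology ExtCitation Cpx CFDual CategoryTheory

namespace PT

/-! ### Pure algebra -/

section algebra

variable {p : ℕ} [hp : Fact p.Prime]

/-- a `p`-torsion group with at most `p` elements and a nonzero element is `ℤ/p` -/
theorem exists_iso_of_card_le {T : Type*} [AddCommGroup T]
    (hT : ∀ A : Finset T, (∀ y ∈ A, p • y = 0) → A.card ≤ p) (v₀ : T) (h0 : p • v₀ = 0)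
    (hne : v₀ ≠ 0) : ∃ ι : pTor p T →+ ZMod p, Function.Bijective ι := by
  classical
  let σ : ZMod p →+ pTor p T := ZMod.lift p ⟨zmultiplesHom _ (⟨v₀, h0⟩ : pTor p T), by
    rw [zmultiplesHom_apply, natCast_zsmul]
    exact Subtype.ext h0⟩
  have hσ : ∀ k : ℤ, ((σ (k : ZMod p) : pTor p T) : T) = k • v₀ := by
    intro k
    show ((ZMod.lift p _ (k : ZMod p) : pTor p T) : T) = _
    rw [ZMod.lift_coe, zmultiplesHom_apply]
    rfl
  have hord : addOrderOf v₀ = p := by
    have h1 : addOrderOf v₀ ∣ p := addOrderOf_dvd_of_nsmul_eq_zero h0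
    rcases (Nat.dvd_prime hp.out).1 h1 with h | h
    · exact absurd (AddMonoid.addOrderOf_eq_one_iff.1 h) hne
    · exact h
  have hinj : Function.Injective σ := by
    rw [injective_iff_map_eq_zero]
    intro z hz
    obtain ⟨k, rfl⟩ := ZMod.intCast_surjective z
    have h1 : k • v₀ = 0 := by
      rw [← hσ k, hz]
      rfl
    rw [ZMod.intCast_zmod_eq_zero_iff_dvd, ← hord]
    exact addOrderOf_dvd_iff_zsmul_eq_zero.2 h1
  have hsurj : Function.Surjective σ := by
    intro t
    by_contra hcon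
    have hcon' : ∀ z, σ z ≠ t := fun z hz => hcon ⟨z, hz⟩
    let A : Finset T := insert (t : T) (Finset.univ.image fun z : ZMod p => ((σ z : pTor p T) : T))
    have hA : ∀ y ∈ A, p • y = 0 := by
      intro y hy
      rcases Finset.mem_insert.1 hy with rfl | hy
      · exact t.2
      · obtain ⟨z, -, rfl⟩ := Finset.mem_image.1 hy
        exact (σ z).2
    have hcard : A.card = p + 1 := by
      rw [Finset.card_insert_of_notMem, Finset.card_image_of_injective, Finset.card_univ,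
        ZMod.card]
      · intro a b hab
        exact hinj (Subtype.ext hab)
      · intro hmem
        obtain ⟨z, -, hz⟩ := Finset.mem_image.1 hmem
        exact hcon' z (Subtype.ext hz)
    have := hT A hA
    omega
  exact ⟨(AddEquiv.ofBijective σ ⟨hinj, hsurj⟩).symm.toAddMonoidHom,
    (AddEquiv.ofBijective σ ⟨hinj, hsurj⟩).symm.bijective⟩

/-- an injective additive map from a nonzero group to `ℤ/p` is surjective -/
lemma surjective_of_injective_of_ne {W : Type*} [AddCommGroup W] (f : W →+ ZMod p)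
    (hf : Function.Injective f) (w₀ : W) (hw₀ : w₀ ≠ 0) : Function.Surjective f := by
  intro b
  have ha : f w₀ ≠ 0 := fun h => hw₀ (hf (h.trans (map_zero f).symm))
  refine ⟨(b * (f w₀)⁻¹).val • w₀, ?_⟩
  rw [map_nsmul, nsmul_eq_mul, ZMod.natCast_val, ZMod.cast_id', id_eq, mul_assoc,
    inv_mul_cancel₀ ha, mul_one]

end algebra

variable (S : Finset Nat.Primes) {p : ℕ} [hp : Fact p.Prime]

/-! ### Shapiro injectivity -/

/-- the localisation maps `H²(G_S, J_S) → H²(G_q, ℚ̄_qˣ)`, `q ∈ S`, are jointly injective -/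
theorem locJ_H2_injective (z : Hsm (basisS S) (JSrep S) 2)
    (h : ∀ q : S, (locJ S q).mapH 2 z = 0) : z = 0 := by
  refine (jsCoind S).sh_H2_injective z fun q => ?_
  apply Csm.coarsen_H2_injective (hco S q) (Yloc q.1)
  · rintro _ ⟨U, hU, rfl⟩
    have hUloc : U.comap (rloc q.1) ∈ (basisLoc q.1).sets := by
      obtain ⟨F, hF, hN, rfl⟩ := hU
      exact ⟨F, hF.1, hN, rfl⟩
    exact ⟨U.comap (rloc q.1), (basisS S).comap_mem_comap (rloc q.1) hU, le_rfl,
      h1Vanishes_Yloc q.1 hUloc⟩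
  · rw [map_zero, ← h q]
    exact (Cpx.Hom.mapH_comp _ _ 2 z).symm

/-- `locJ S q` is `Csm.mapG` along `rloc q` with the evaluation `(jsCoind S).ev q`, for the finer local
topology (for use with `Lvl.HomOver.mapG_inflH`) -/
lemma locJ_mapH_eq_mapG (q : S) (hcont : (basisS S).IsCont (basisLoc q.1) (rloc q.1)) (n : ℕ)
    (z : Hsm (basisS S) (JSrep S) n) :
    (locJ S q).mapH n z = (Csm.mapG hcont ((jsCoind S).ev q)).mapH n z :=
  Cpx.Hom.mapH_congr (fun _ _ => rfl) n z

/-- continuity of `rloc q` for the full local topology -/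
lemma isCont_rloc (q : S) : (basisS S).IsCont (basisLoc q.1) (rloc q.1) := by
  intro U hU
  obtain ⟨V, hV, hle⟩ := hco S q (U.comap (rloc q.1)) ((basisS S).comap_mem_comap (rloc q.1) hU)
  exact ⟨V, hV, hle⟩

/-- `z ∈ H²(G_S, J_S)` is the inclusion of the `q`-component `w` -/
def IsIncl (q : S) (w : Hsm (basisLoc q.1) (Yloc q.1) 2) (z : Hsm (basisS S) (JSrep S) 2) : Prop :=
  (locJ S q).mapH 2 z = w ∧ ∀ q' : S, q' ≠ q → (locJ S q').mapH 2 z = 0

variable {S}

lemma IsIncl.unique {q : S} {w : Hsm (basisLoc q.1) (Yloc q.1) 2}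
    {z z' : Hsm (basisS S) (JSrep S) 2} (h : IsIncl S q w z) (h' : IsIncl S q w z') : z = z' := by
  rw [← sub_eq_zero]
  apply locJ_H2_injective S
  intro q'
  rw [map_sub]
  by_cases hq : q' = q
  · subst hq
    rw [h.1, h'.1, sub_self]
  · rw [h.2 q' hq, h'.2 q' hq, sub_self]

lemma IsIncl.add {q : S} {w w' : Hsm (basisLoc q.1) (Yloc q.1) 2}
    {z z' : Hsm (basisS S) (JSrep S) 2} (h : IsIncl S q w z) (h' : IsIncl S q w' z') :
    IsIncl S q (w + w') (z + z') := by
  refine ⟨by rw [map_add, h.1, h'.1], fun q' hq => ?_⟩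
  rw [map_add, h.2 q' hq, h'.2 q' hq, add_zero]

lemma IsIncl.zero (q : S) : IsIncl S q 0 0 :=
  ⟨map_zero _, fun _ _ => map_zero _⟩

lemma IsIncl.nsmul_eq_zero {q : S} {w : Hsm (basisLoc q.1) (Yloc q.1) 2}
    {z : Hsm (basisS S) (JSrep S) 2} (h : IsIncl S q w z) (n : ℕ) (hw : n • w = 0) : n • z = 0 := by
  apply locJ_H2_injective S
  intro q'
  rw [map_nsmul]
  by_cases hq : q' = q
  · subst hq
    rw [h.1, hw]
  · rw [h.2 q' hq, smul_zero]

variable (S)

/-! ### The construction -/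

/-- **`InvData` from the invariant-free facts (T), (NT), (III).** -/
theorem nonempty_invData
    (hT : ∀ A : Finset (Hsm (basisS S) (CSfull S) 2), (∀ y ∈ A, p • y = 0) → A.card ≤ p)
    (hNT : ∀ q : S, ∃ w : Hsm (basisLoc q.1) (Yloc q.1) 2, p • w = 0 ∧ w ≠ 0)
    (hIII : ∀ (q : S) (w : Hsm (basisLoc q.1) (Yloc q.1) 2), p • w = 0 →
      ∃ z : Hsm (basisS S) (JSrep S) 2, IsIncl S q w z ∧
        (w ≠ 0 → (Csm.map (basisS S) (πJ S)).mapH 2 z ≠ 0))
    (hS : S.Nonempty) : Nonempty (InvData S p) := by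
  classical
  -- the inclusions of the components
  choose zOf hzOf hzOf' using hIII
  have hπtor : ∀ (q : S) (w : Hsm (basisLoc q.1) (Yloc q.1) 2) (hw : p • w = 0),
      p • (Csm.map (basisS S) (πJ S)).mapH 2 (zOf q w hw) = 0 := fun q w hw => by
    rw [← map_nsmul, (hzOf q w hw).nsmul_eq_zero p hw, map_zero]
  let f : ∀ q : S, pTor p (Hsm (basisLoc q.1) (Yloc q.1) 2) →+
      pTor p (Hsm (basisS S) (CSfull S) 2) := fun q =>
    { toFun := fun w => ⟨(Csm.map (basisS S) (πJ S)).mapH 2 (zOf q w.1 w.2), hπtor q w.1 w.2⟩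
      map_zero' := by
        apply Subtype.ext
        show (Csm.map (basisS S) (πJ S)).mapH 2 (zOf q 0 _) = 0
        rw [(hzOf q 0 _).unique (IsIncl.zero q), map_zero]
      map_add' := fun w w' => by
        apply Subtype.ext
        show (Csm.map (basisS S) (πJ S)).mapH 2 (zOf q (w.1 + w'.1) _) =
          (Csm.map (basisS S) (πJ S)).mapH 2 (zOf q w.1 w.2) +
            (Csm.map (basisS S) (πJ S)).mapH 2 (zOf q w'.1 w'.2)
        rw [(hzOf q (w.1 + w'.1) _).unique ((hzOf q w.1 w.2).add (hzOf q w'.1 w'.2)), map_add] }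
  have hf : ∀ q, Function.Injective (f q) := fun q => by
    rw [injective_iff_map_eq_zero]
    intro w hw
    by_contra hne
    have hne' : w.1 ≠ 0 := fun h => hne (Subtype.ext h)
    exact hzOf' q w.1 w.2 hne' (congrArg Subtype.val hw)
  -- the global identification
  obtain ⟨q₀, hq₀⟩ := hS
  obtain ⟨w₀, hw₀, hw₀ne⟩ := hNT ⟨q₀, hq₀⟩
  have hv₀ne : (Csm.map (basisS S) (πJ S)).mapH 2 (zOf ⟨q₀, hq₀⟩ w₀ hw₀) ≠ 0 :=
    hzOf' ⟨q₀, hq₀⟩ w₀ hw₀ hw₀ne
  obtain ⟨ιS, hιS⟩ := exists_iso_of_card_le hT _ (hπtor ⟨q₀, hq₀⟩ w₀ hw₀) hv₀ne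
  refine ⟨{ ιS := ιS
            ιq := fun q => ιS.comp (f q)
            ιS_bij := hιS
            ιq_bij := fun q => ?_
            sum := ?_ }⟩
  · have hinj : Function.Injective (ιS.comp (f q)) := hιS.1.comp (hf q)
    obtain ⟨w, hw, hwne⟩ := hNT q
    exact ⟨hinj, surjective_of_injective_of_ne _ hinj ⟨w, hw⟩ (fun h => hwne (congrArg Subtype.val h))⟩
  · intro z hz h1 h2
    have hz' : z = ∑ q : S, zOf q ((locJ S q).mapH 2 z) (h2 q) := by
      rw [← sub_eq_zero]
      apply locJ_H2_injective S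
      intro q'
      rw [map_sub, map_sum, sub_eq_zero]
      rw [Finset.sum_eq_single q']
      · exact ((hzOf q' _ (h2 q')).1).symm
      · intro q _ hq
        exact (hzOf q _ (h2 q)).2 q' (Ne.symm hq)
      · intro h
        exact absurd (Finset.mem_univ q') h
    have h3 : (⟨(Csm.map (basisS S) (πJ S)).mapH 2 z, h1⟩ : pTor p (Hsm (basisS S) (CSfull S) 2)) =
        ∑ q : S, f q ⟨(locJ S q).mapH 2 z, h2 q⟩ := by
      apply Subtype.ext
      rw [AddSubgroup.val_finsetSum]
      show (Csm.map (basisS S) (πJ S)).mapH 2 z =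
        ∑ q : S, (Csm.map (basisS S) (πJ S)).mapH 2 (zOf q ((locJ S q).mapH 2 z) (h2 q))
      rw [← map_sum, ← hz']
    rw [h3, map_sum]
    rfl

end PT

end Fermat.Agent.S55lib
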