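/-
S55lib / GlobDual / K12Glue  (helper7).

`K12Statement` (helper4's target for block (V)) from
  * `K4Statement` for the global class formation `(basisS S, CSfull S)`,
  * `K4Statement` for the local class formations `(basisLoc q, Yloc q)`, `q ∈ S`,
  * the invariant data (`PT.InvData S p`), or the invariant-free facts (T), (NT), (III) of `GlobDual/InvFree`,
for all odd `p` and all finite `S ∋ p`.
-/
import Fermat.Agent.S55lib.GlobDual.InvFree

set_option autoImplicit false

noncomputable section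

namespace Fermat.Agent.S55lib

open groupCohomology ExtCitation CFDual

/-- **K12 from K4 (global + local) and the invariant data.** -/
theorem k12_of_K4_invData
    (h : ∀ {p : ℕ} [Fact p.Prime] (_hp2 : p ≠ 2) (S : Finset Nat.Primes) (_hpS : pPrime p ∈ S),
      Nonempty (PT.InvData S p) ∧ K4Statement (basisS S) p (CSfull S) ∧
        ∀ q : S, K4Statement (basisLoc q.1) p (Yloc q.1)) : K12Statement := by
  apply k12_of_PTInput
  intro p _ hp2 S hpS M _ hsm hMur
  obtain ⟨⟨I⟩, hK4, hK4q⟩ := h hp2 S hpS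
  have hfin : Finite M := Module.finite_of_finite (ZMod p)
  exact PT.nonempty_PTInput S hpS M (isSmooth_of_unramified S M hsm hMur) I hK4 hK4q

/-- **K12 from K4 (global + local) and the invariant-free reciprocity facts (T), (NT), (III).** -/
theorem k12_of_K4_K9III
    (h : ∀ {p : ℕ} [Fact p.Prime] (_hp2 : p ≠ 2) (S : Finset Nat.Primes) (_hpS : pPrime p ∈ S),
      (∀ A : Finset (Hsm (basisS S) (CSfull S) 2), (∀ y ∈ A, p • y = 0) → A.card ≤ p) ∧
      (∀ q : S, ∃ w : Hsm (basisLoc q.1) (Yloc q.1) 2, p • w = 0 ∧ w ≠ 0) ∧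
      (∀ (q : S) (w : Hsm (basisLoc q.1) (Yloc q.1) 2), p • w = 0 →
        ∃ z : Hsm (basisS S) (JSrep S) 2, PT.IsIncl S q w z ∧
          (w ≠ 0 → (Csm.map (basisS S) (PT.πJ S)).mapH 2 z ≠ 0)) ∧
      K4Statement (basisS S) p (CSfull S) ∧
      ∀ q : S, K4Statement (basisLoc q.1) p (Yloc q.1)) : K12Statement := by
  apply k12_of_K4_invData
  intro p _ hp2 S hpS
  obtain ⟨hT, hNT, hIII, hK4, hK4q⟩ := h hp2 S hpS
  exact ⟨PT.nonempty_invData S hT hNT hIII ⟨_, hpS⟩, hK4, hK4q⟩

end Fermat.Agent.S55lib
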