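/-
S55lib / GlobDual / K12Final  (helper7).

`K12Statement` from the GLOBAL inputs only: the local inputs (local Tate duality `K4Statement` for
`(Gloc q, basisLoc q, Yloc q)` and `H²(G_q, ℚ̄_qˣ)[p] ≠ 0`) are helper6's theorems
`LocalH.k4Statement_loc`, `LocalH.iotaQP`.
Remaining hypotheses, for `p` odd and `S ∋ p`:
  (T)   `H²(G_S, CSfull S)[p]` has at most `p` elements,
  (III) every `w ∈ H²(G_q, ℚ̄_qˣ)[p]` is the `q`-component of a class of `H²(G_S, J_S)` supported at `q`, whose image in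
        `H²(G_S, CSfull S)` is nonzero if `w ≠ 0`,
  (K4)  `K4Statement (basisS S) p (CSfull S)`.
-/
import Fermat.Agent.S55lib.GlobDual.K12Glue
import Fermat.Agent.S55lib.LocalH.LocalK5Primes

set_option autoImplicit false

noncomputable section

namespace Fermat.Agent.S55lib

open groupCohomology ExtCitation CFDual

/-- (NT): `H²(G_q, ℚ̄_qˣ)[p] ≠ 0` -/
theorem PT.exists_ne_zero_loc (q : Nat.Primes) (p : ℕ) [hp : Fact p.Prime] :
    ∃ w : Hsm (basisLoc q) (Yloc q) 2, p • w = 0 ∧ w ≠ 0 := by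
  have : NeZero p := ⟨hp.out.ne_zero⟩
  refine ⟨((LocalH.iotaQP q p).symm 1 : LocalH.torsQ q p), (LocalH.mem_torsQ q).1 (Subtype.property _),
    fun h => ?_⟩
  have h1 : (LocalH.iotaQP q p).symm 1 = 0 := Subtype.ext h
  have h2 : (1 : ZMod p) = 0 := by
    rw [← (LocalH.iotaQP q p).apply_symm_apply 1, h1, map_zero]
  have : Fact (1 < p) := ⟨hp.out.one_lt⟩
  exact one_ne_zero h2

/-- `H²(G_q, ℚ̄_qˣ)[p]` is generated by any nonzero element -/
theorem PT.exists_nsmul_eq_loc (q : Nat.Primes) (p : ℕ) [hp : Fact p.Prime]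
    (w₀ w : Hsm (basisLoc q) (Yloc q) 2) (hw₀ : p • w₀ = 0) (hne : w₀ ≠ 0) (hw : p • w = 0) :
    ∃ k : ℕ, w = k • w₀ := by
  have : NeZero p := ⟨hp.out.ne_zero⟩
  let e := LocalH.iotaQP q p
  let x₀ : LocalH.torsQ q p := ⟨w₀, (LocalH.mem_torsQ q).2 hw₀⟩
  let x : LocalH.torsQ q p := ⟨w, (LocalH.mem_torsQ q).2 hw⟩
  have ha : e x₀ ≠ 0 := fun h => hne (congrArg Subtype.val
    (e.injective (h.trans (map_zero e).symm)))
  refine ⟨(e x * (e x₀)⁻¹).val, ?_⟩
  have h1 : x = (e x * (e x₀)⁻¹).val • x₀ := by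
    apply e.injective
    rw [map_nsmul, nsmul_eq_mul, ZMod.natCast_val, ZMod.cast_id', id_eq, mul_assoc,
      inv_mul_cancel₀ ha, mul_one]
  exact congrArg Subtype.val h1

/-- **(III) from one class per `q ∈ S`**: it suffices to have, for every `q ∈ S`, one class of
`H²(G_S, J_S)` supported at `q`, with `p`-torsion `q`-component and nonzero image in `H²(G_S, CSfull S)`. -/
theorem PT.hIII_of_one (S : Finset Nat.Primes) {p : ℕ} [hp : Fact p.Prime]
    (h : ∀ q : S, ∃ z : Hsm (basisS S) (JSrep S) 2,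
      (∀ q' : S, q' ≠ q → (PT.locJ S q').mapH 2 z = 0) ∧ p • (PT.locJ S q).mapH 2 z = 0 ∧
        (Csm.map (basisS S) (PT.πJ S)).mapH 2 z ≠ 0) :
    ∀ (q : S) (w : Hsm (basisLoc q.1) (Yloc q.1) 2), p • w = 0 →
      ∃ z : Hsm (basisS S) (JSrep S) 2, PT.IsIncl S q w z ∧
        (w ≠ 0 → (Csm.map (basisS S) (PT.πJ S)).mapH 2 z ≠ 0) := by
  intro q w hw
  obtain ⟨z₀, h1, h2, h3⟩ := h q
  have hincl : PT.IsIncl S q ((PT.locJ S q).mapH 2 z₀) z₀ := ⟨rfl, h1⟩
  have hz₀ : p • z₀ = 0 := hincl.nsmul_eq_zero p h2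
  have hne : (PT.locJ S q).mapH 2 z₀ ≠ 0 := by
    intro h0
    apply h3
    have : z₀ = 0 := hincl.unique (by rw [h0]; exact PT.IsIncl.zero q)
    rw [this, map_zero]
  obtain ⟨k, hk⟩ := PT.exists_nsmul_eq_loc q.1 p _ w h2 hne hw
  refine ⟨k • z₀, ⟨by rw [map_nsmul, hk], fun q' hq' => by rw [map_nsmul, h1 q' hq', smul_zero]⟩,
    fun hwne h0 => ?_⟩
  rw [map_nsmul] at h0
  -- the image of `z₀` has order exactly `p`
  have hp0 : p • (Csm.map (basisS S) (PT.πJ S)).mapH 2 z₀ = 0 := by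
    rw [← map_nsmul, hz₀, map_zero]
  have hord : addOrderOf ((Csm.map (basisS S) (PT.πJ S)).mapH 2 z₀) = p := by
    rcases (Nat.dvd_prime hp.out).1 (addOrderOf_dvd_of_nsmul_eq_zero hp0) with h | h
    · exact absurd (AddMonoid.addOrderOf_eq_one_iff.1 h) h3
    · exact h
  have hdvd : p ∣ k := by
    rw [← hord]
    exact addOrderOf_dvd_of_nsmul_eq_zero h0
  obtain ⟨c, rfl⟩ := hdvd
  apply hwne
  rw [hk, mul_comm, mul_smul, h2, smul_zero]

/-- **K12 from the global inputs (T), (III), (K4).** -/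
theorem k12_of_global
    (h : ∀ {p : ℕ} [Fact p.Prime] (_hp2 : p ≠ 2) (S : Finset Nat.Primes) (_hpS : pPrime p ∈ S),
      (∀ A : Finset (Hsm (basisS S) (CSfull S) 2), (∀ y ∈ A, p • y = 0) → A.card ≤ p) ∧
      (∀ (q : S) (w : Hsm (basisLoc q.1) (Yloc q.1) 2), p • w = 0 →
        ∃ z : Hsm (basisS S) (JSrep S) 2, PT.IsIncl S q w z ∧
          (w ≠ 0 → (Csm.map (basisS S) (PT.πJ S)).mapH 2 z ≠ 0)) ∧
      K4Statement (basisS S) p (CSfull S)) : K12Statement := by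
  apply k12_of_K4_K9III
  intro p _ hp2 S hpS
  obtain ⟨hT, hIII, hK4⟩ := h hp2 S hpS
  exact ⟨hT, fun q => PT.exists_ne_zero_loc q.1 p, hIII, hK4,
    fun q => LocalH.k4Statement_loc q.1 p⟩

end Fermat.Agent.S55lib
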