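/-
S55lib / GlobDual / LocVanish  (helper7).

For the limit transfer of (K9-III) (helper4's `Iface/RecipLimit`), via `PT.hIII_of_one`:
a class of `H²(G_S, J_S)` inflated from a finite level `L` through the `q`-component `J_q(L) ⊂ J_S(L)` is
SUPPORTED AT `q`, i.e. its `q'`-components `PT.locJ S q'` vanish for `q' ≠ q` — on cochains, no local levels needed.

* `Lvl.mapG_inflH_map_eq_zero` (generic, any `Lvl`): if `ψ ∘ j ∘ φ = 0` then `Csm.mapG ψ` kills `inflH (φ_* y)`;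
* `jsEval_ofLevel`: `ev_q (J_S(L) ∋ x) = x_q(canonical embedding)`;
* `JSlev.single q : J_q(L) → J_S(L)` and `𝓛.singleJ q : res (jqRep L q) ⟶ 𝓛.modJ`;
* **`PT.locJ_inflH_single_eq_zero`**: `locJ_{q'} (inflH ((single q)_* y)) = 0` for `q' ≠ q`;
* `PT.nsmul_locJ_inflH_eq_zero`: torsion passes through.
-/
import Fermat.Agent.S55lib.GlobDual.InvFree
import Fermat.Agent.S55lib.Iface.JDict

set_option autoImplicit false

noncomputable section

namespace Fermat.Agent.S55lib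

open groupCohomology CategoryTheory Cpx

universe u

section Generic

variable {k V V' : Type u} [CommRing k] [Group V] [Group V'] {𝒱 : OpenBasis V} {𝒱' : OpenBasis V'}
  {A : Rep.{u} k V} {A' : Rep.{u} k V'} {h : V' →* V} (hcont : 𝒱.IsCont 𝒱' h)
  (ψ : Rep.res h A ⟶ A') (𝓕 : Lvl 𝒱 A)

include hcont in
/-- a class inflated from a level through a module `B'` with `ψ ∘ j ∘ φ = 0` dies under `Csm.mapG ψ` -/
theorem Lvl.mapG_inflH_map_eq_zero {B' : Rep.{u} k 𝓕.Γ} (φ : B' ⟶ 𝓕.B)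
    (hz : ∀ b' : B', ψ.hom (𝓕.j.hom (φ.hom b')) = 0) {n : ℕ} (y : groupCohomology B' n) :
    (Csm.mapG hcont ψ).mapH n
      (𝓕.inflH n (groupCohomology.map (A := B') (B := 𝓕.B) (MonoidHom.id 𝓕.Γ) φ n y)) = 0 := by
  obtain ⟨w, rfl⟩ := (Call.toGC B' n).surjective y
  obtain ⟨z, hz', rfl⟩ := (Call B').exists_rep w
  have h1 : groupCohomology.map (A := B') (B := 𝓕.B) (MonoidHom.id 𝓕.Γ) φ n
      (Call.toGC _ n ((Call B').cl z hz')) =
      Call.toGC _ n ((Call.map (B := B') (B' := 𝓕.B) (MonoidHom.id 𝓕.Γ) φ).mapH n ((Call B').cl z hz')) :=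
    (Call.toGC_map (MonoidHom.id 𝓕.Γ) φ n _).symm
  rw [h1, Cpx.Hom.mapH_cl, Lvl.inflH_toGC_cl, Cpx.Hom.mapH_cl, Cpx.cl_eq_zero_iff]
  have h0 : (Csm.mapG hcont ψ).f n ((𝓕.infl).f n
      ((Call.map (B := B') (B' := 𝓕.B) (MonoidHom.id 𝓕.Γ) φ).f n z)) = 0 := by
    apply Subtype.ext
    funext g
    refine Eq.trans (Csm.mapG_val hcont ψ n _ g) ?_
    rw [𝓕.infl_val]
    exact hz _
  rw [h0]
  exact Submodule.zero_mem _

end Generic

/-! ### The `q`-component of `J_S(M)` -/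

variable (S : Finset Nat.Primes)

section Single

variable (M : Type) [Field M] [Algebra ℚ M]

open Classical in
/-- the inclusion of the `q`-component `J_q(M) → J_S(M)` -/
def PT.jsSingle (q : S) : Jq (q.1 : ℕ) M →* JSlev S M :=
  MonoidHom.mulSingle (fun q : S => ↥(Jq (q.1 : ℕ) M)) q

variable {M}

lemma PT.comp_jsSingle_same (q : S) (a : Jq (q.1 : ℕ) M) :
    JSlev.comp S M q (PT.jsSingle S M q a) = a := by
  classical
  exact Pi.mulSingle_eq_same (M := fun q : S => ↥(Jq (q.1 : ℕ) M)) q a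

lemma PT.comp_jsSingle_of_ne {q q' : S} (h : q' ≠ q) (a : Jq (q.1 : ℕ) M) :
    JSlev.comp S M q' (PT.jsSingle S M q a) = 1 := by
  classical
  exact Pi.mulSingle_eq_of_ne (M := fun q : S => ↥(Jq (q.1 : ℕ) M)) h a

lemma PT.jsSingle_smul (γ : M ≃ₐ[ℚ] M) (q : S) (a : Jq (q.1 : ℕ) M) :
    PT.jsSingle S M q (γ • a) = γ • PT.jsSingle S M q a := by
  apply JSlev.ext
  intro q'
  rw [JSlev.comp_smul]
  by_cases h : q' = q
  · subst h
    rw [PT.comp_jsSingle_same, PT.comp_jsSingle_same]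
  · rw [PT.comp_jsSingle_of_ne S h, PT.comp_jsSingle_of_ne S h, smul_one]

/-- as an idele, `single_q a ∈ J_S(M)` is `Idele.single q a` -/
lemma PT.toIdele_jsSingle (q : S) (a : Jq (q.1 : ℕ) M) :
    JSlev.toIdele S (PT.jsSingle S M q a) = Dev.Idele.single q.1 a := by
  apply Dev.Idele.ext
  intro q'
  by_cases hq' : q' ∈ S
  · rw [JSlev.toIdele_apply_of_mem S _ hq']
    by_cases h : q' = q.1
    · subst h
      rw [Dev.Idele.single_apply_same]
      exact PT.comp_jsSingle_same S q a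
    · rw [Dev.Idele.single_apply_of_ne h]
      exact PT.comp_jsSingle_of_ne S (fun h' => h (congrArg Subtype.val h')) a
  · rw [JSlev.toIdele_apply_of_notMem S _ hq']
    have h : q' ≠ q.1 := fun h => hq' (h ▸ q.2)
    rw [Dev.Idele.single_apply_of_ne h]

end Single

/-- `ev_q` on the elements of level `L`: evaluation of the `q`-component at the canonical embedding -/
lemma jsEval_ofLevel (L : FieldQ) [Normal ℚ L] (hL : L.IsUnramifiedOutside S) (q : S) (x : JSlev S ↥L) :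
    jsEval S q (JSlev.ofLevel S L hL x) = (JSlev.comp S ↥L q x).1 (embOf L (q.1 : ℕ) 1) := by
  rw [jsEval_apply, JSlev.comp_ofLevel, JSq.ofLevel_apply]

/-- `ev_{q'}` kills the `q`-component, `q' ≠ q` -/
lemma jsEval_ofLevel_jsSingle_of_ne (L : FieldQ) [Normal ℚ L] (hL : L.IsUnramifiedOutside S) {q q' : S}
    (h : q' ≠ q) (a : Jq (q.1 : ℕ) ↥L) :
    jsEval S q' (JSlev.ofLevel S L hL (PT.jsSingle S ↥L q a)) = 1 := by
  rw [jsEval_ofLevel, PT.comp_jsSingle_of_ne S h]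
  rfl

/-! ### Classes supported at `q` -/

namespace ClsLevel

variable {S} {W : Type} [Group W] {f : W →* GQ} (𝓛 : ClsLevel S f)

/-- `J_q(L) → J_S(L)` as a morphism of `Γ_L`-modules -/
def singleJ (q : S) : Rep.res 𝓛.Gam.subtype (Dev.jqRep ↥𝓛.L q.1) ⟶ 𝓛.modJ :=
  (Rep.resFunctor 𝓛.Gam.subtype).map
    (Dev.mulRepHom (PT.jsSingle S ↥𝓛.L q) (fun γ a => PT.jsSingle_smul S γ q a))

lemma singleJ_apply (q : S) (a : Additive (Jq (q.1 : ℕ) ↥𝓛.L)) :
    (𝓛.singleJ q).hom (a : Rep.res 𝓛.Gam.subtype (Dev.jqRep ↥𝓛.L q.1)) =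
      Additive.ofMul (PT.jsSingle S ↥𝓛.L q (Additive.toMul a)) := rfl

end ClsLevel

/-- **a class inflated from the `q`-component of a finite level is supported at `q`**:
`locJ_{q'} (inflH ((single q)_* y)) = 0` for `q' ≠ q`. -/
theorem PT.locJ_inflH_single_eq_zero (𝓛 : ClsLevel S (MonoidHom.id GQ)) {q q' : S} (h : q' ≠ q) {n : ℕ}
    (y : groupCohomology (Rep.res 𝓛.Gam.subtype (Dev.jqRep ↥𝓛.L q.1)) n) :
    (PT.locJ S q').mapH n
      ((𝓛.lvlJ (clsBasis_id S)).inflH n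
        (groupCohomology.map (A := Rep.res 𝓛.Gam.subtype (Dev.jqRep ↥𝓛.L q.1)) (B := 𝓛.modJ)
          (MonoidHom.id ↥𝓛.Gam) (𝓛.singleJ q) n y)) = 0 := by
  rw [PT.locJ_mapH_eq_mapG S q' (PT.isCont_rloc S q')]
  refine Lvl.mapG_inflH_map_eq_zero (PT.isCont_rloc S q') ((jsCoind S).ev q')
    (𝓛.lvlJ (clsBasis_id S)) (𝓛.singleJ q) (fun b' => ?_) y
  change (jsEv S q').hom ((𝓛.inclJ).hom ((𝓛.singleJ q).hom b')) = 0
  rw [ClsLevel.inclJ_apply]
  refine Eq.trans (jsEv_apply S q' _) ?_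
  exact congrArg Additive.ofMul (jsEval_ofLevel_jsSingle_of_ne S 𝓛.L 𝓛.unr h _)

end Fermat.Agent.S55lib
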