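/-
S55lib / GlobDual / LvlInj  (helper7).

Generic facts on morphisms of levels (helper4's `Iface/LevelDict`), for the limit transfer of (K9-III):

* `Lvl.Hom.ρ_surjective`, `Lvl.Hom.φ_injective`, `Lvl.Hom.φ_range` : a morphism of levels `t : Lvl.Hom 𝓕 𝓕'` is in
  helper8's "hom form" (`Recip/TateGen`, section HomForm): `𝓕.B = (𝓕'.B)^{ker t.ρ}`;
* **`Lvl.Hom.inf_two_injective_pPrimary`** : inflation `H²(𝓕.Γ, 𝓕.B) → H²(𝓕'.Γ, 𝓕'.B)` is injective on `p`-primary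
  classes when `H¹(ker t.ρ, 𝓕'.B)` has no `p`-power torsion [(c′)];
* `Lvl.Hom.inf_inf` : inflation in stages;
* `Lvl.Hom.asOver` : a morphism of levels as a morphism over the identity.
-/
import Fermat.Agent.S55lib.Iface.LevelDict
import Fermat.Agent.S55lib.Recip.TateGen

set_option autoImplicit false

noncomputable section

namespace Fermat.Agent.S55lib

open groupCohomology CategoryTheory

universe u

variable {k V : Type u} [CommRing k] [Group V] {𝒱 : OpenBasis V} {A : Rep.{u} k V}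

namespace Lvl.Hom

variable {𝓕 𝓕' : Lvl 𝒱 A} (t : Lvl.Hom 𝓕 𝓕')

lemma ρ_surjective : Function.Surjective t.ρ := by
  intro γ
  obtain ⟨v, rfl⟩ := 𝓕.r_surj γ
  exact ⟨𝓕'.r v, t.hρ v⟩

lemma φ_injective : Function.Injective t.φ.hom := by
  intro b b' h
  apply 𝓕.j_inj
  rw [← t.hφ b, ← t.hφ b', h]

lemma φ_range (a : 𝓕'.B) (ha : ∀ s ∈ t.ρ.ker, 𝓕'.B.ρ s a = a) : ∃ b : 𝓕.B, t.φ.hom b = a := by
  obtain ⟨b, hb⟩ := 𝓕.range_j (𝓕'.j.hom a) (fun v hv => by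
    have h1 : 𝓕'.r v ∈ t.ρ.ker := by
      rw [MonoidHom.mem_ker, t.hρ]
      exact hv
    rw [← 𝓕'.j_comm, ha _ h1])
  refine ⟨b, 𝓕'.j_inj ?_⟩
  rw [t.hφ, hb]

/-- **(c′) for levels**: inflation between two levels is injective on the `p`-primary part of `H²` when
`H¹(ker, B')` has no `p`-power torsion. -/
theorem inf_two_injective_pPrimary [Finite t.ρ.ker] (p : ℕ) [Fact p.Prime]
    (h1 : ∀ (x : groupCohomology (Rep.res t.ρ.ker.subtype 𝓕'.B) 1) (m : ℕ), p ^ m • x = 0 → x = 0)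
    (y : groupCohomology 𝓕.B 2) (m : ℕ) (hy : p ^ m • y = 0) (hinf : t.inf 2 y = 0) : y = 0 :=
  Recip.map_two_injective_pPrimary t.ρ t.ρ_surjective 𝓕'.B 𝓕.B t.φ t.φ_injective t.φ_range p h1 y m hy hinf

/-- inflation in stages (the maps are determined by `r_surj`, `j_inj`) -/
theorem inf_inf {𝓕₁ 𝓕₂ : Lvl 𝒱 A} (t₁ : Lvl.Hom 𝓕 𝓕₁) (t₂ : Lvl.Hom 𝓕₁ 𝓕₂) (t₃ : Lvl.Hom 𝓕 𝓕₂) {n : ℕ}
    (y : groupCohomology 𝓕.B n) : t₂.inf n (t₁.inf n y) = t₃.inf n y := by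
  have hgrp : ∀ γ : 𝓕₂.Γ, t₁.ρ (t₂.ρ γ) = t₃.ρ γ := by
    intro γ
    obtain ⟨v, rfl⟩ := 𝓕₂.r_surj γ
    rw [t₂.hρ, t₁.hρ, t₃.hρ]
  have hmod : ∀ b : 𝓕.B, t₂.φ.hom (t₁.φ.hom b) = t₃.φ.hom b := by
    intro b
    apply 𝓕₂.j_inj
    rw [t₂.hφ, t₁.hφ, t₃.hφ]
  obtain ⟨w, rfl⟩ := (Call.toGC 𝓕.B n).surjective y
  obtain ⟨z, hz, rfl⟩ := (Call 𝓕.B).exists_rep w
  rw [Lvl.Hom.inf_apply, Lvl.Hom.inf_apply, Lvl.Hom.inf_apply, ← Call.toGC_map, ← Call.toGC_map,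
    ← Call.toGC_map, Cpx.Hom.mapH_cl, Cpx.Hom.mapH_cl, Cpx.Hom.mapH_cl]
  congr 1
  refine Cpx.cl_congr _ ?_ _
  funext γ
  rw [Call.map_apply, Call.map_apply, Call.map_apply, hmod]
  congr 2
  funext i
  exact hgrp (γ i)

end Lvl.Hom

end Fermat.Agent.S55lib
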