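/-
S55lib / GlobDual / HIII  (helper7).

**The global input (III) of `k12_of_global`**, assembled from
* helper6's finite-level classes `LocalH.k9Gen` with `LocalH.k9All_tame / k9All_wild` (`p`-torsion, nonzero image in
  `H²(Aut L, C(L))` at EVERY Galois level `L ∋ ζ_{p^(m+1)}`; uses helper2's (ORD-all)),
* helper4's level dictionaries `Iface/JDict`, `Iface/ClassDict` (`jSystem`, `clsSystem`, `jcOver`),
* helper5's `Dev/Delta5` (`classToS_H2_injective`, `pClassModule_modB`) with helper3's (G) `Recip.fundClassStatement`,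
* `GlobDual/LocVanish` (support), `GlobDual/LvlInj` (`p`-primary injectivity of inflation between levels), `PT.hIII_of_one`.
-/
import Fermat.Agent.S55lib.GlobDual.K12Final
import Fermat.Agent.S55lib.GlobDual.LocVanish
import Fermat.Agent.S55lib.GlobDual.LvlInj
import Fermat.Agent.S55lib.Dev.GlobalCF
import Fermat.Agent.S55lib.Recip.FundClassStmt
import Fermat.Agent.S55lib.LocalH.K9All

set_option autoImplicit false

noncomputable section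

namespace Fermat.Agent.S55lib

open groupCohomology CategoryTheory Cpx ExtCitation

namespace PT

variable {S : Finset Nat.Primes}

/-- restriction to `Γ_L = ⊤` is injective -/
theorem resGam_injective (𝓛 : ClsLevel S (MonoidHom.id GQ)) (A : Rep.{0} ℤ (↥𝓛.L ≃ₐ[ℚ] ↥𝓛.L)) (n : ℕ) :
    Function.Injective (groupCohomology.map 𝓛.Gam.subtype (𝟙 (Rep.res 𝓛.Gam.subtype A)) n) := by
  have hbij : Function.Bijective 𝓛.Gam.subtype := by
    refine ⟨Subtype.val_injective, fun γ => ⟨⟨γ, ?_⟩, rfl⟩⟩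
    rw [𝓛.gam_id_eq_top]
    exact Subgroup.mem_top γ
  have := Dev.isIso_map_of_bijective 𝓛.Gam.subtype hbij (A := A) (𝟙 (Rep.res 𝓛.Gam.subtype A))
    Function.bijective_id n
  exact (ConcreteCategory.bijective_of_isIso _).1

/-- `J_q(L) → J_S(L) → 𝒞_S(L)` is `J_q(L) → I(L) → C(L) → 𝒞_S(L)` -/
theorem jcB_singleJ {W : Type} [Group W] {f : W →* GQ} (𝓛 : ClsLevel S f) (q : S)
    (a : Rep.res 𝓛.Gam.subtype (Dev.jqRep ↥𝓛.L q.1)) :
    (𝓛.jcB).hom ((𝓛.singleJ q).hom a) =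
      (Dev.classToSRep ↥𝓛.L (S : Set Nat.Primes)).hom
        ((Dev.ideleToClassRep ↥𝓛.L).hom ((Dev.ideleSingleRep ↥𝓛.L q.1).hom a)) := by
  rw [ClsLevel.jcB_apply]
  change Additive.ofMul (𝓛.toCls (PT.jsSingle S ↥𝓛.L q (Additive.toMul (show Additive (Jq (q.1 : ℕ) ↥𝓛.L) from a)))) = _
  rw [ClsLevel.toCls_apply, PT.toIdele_jsSingle]
  rfl

/-- the class of `H²(Γ_L, 𝒞_S(L))` attached to a class `ξ` of `H²(Aut L, J_q(L))`, in two ways -/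
theorem map_jcB_singleJ (𝓛 : ClsLevel S (MonoidHom.id GQ)) (q : S)
    (ξ : groupCohomology (Dev.jqRep ↥𝓛.L q.1) 2) :
    groupCohomology.map (A := 𝓛.modJ) (B := 𝓛.modB) (MonoidHom.id ↥𝓛.Gam) 𝓛.jcB 2
      (groupCohomology.map (A := Rep.res 𝓛.Gam.subtype (Dev.jqRep ↥𝓛.L q.1)) (B := 𝓛.modJ)
        (MonoidHom.id ↥𝓛.Gam) (𝓛.singleJ q) 2
        (groupCohomology.map 𝓛.Gam.subtype (𝟙 (Rep.res 𝓛.Gam.subtype (Dev.jqRep ↥𝓛.L q.1))) 2 ξ)) =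
    groupCohomology.map 𝓛.Gam.subtype
        (𝟙 (Rep.res 𝓛.Gam.subtype (Dev.classRepS ↥𝓛.L (S : Set Nat.Primes)))) 2
      (groupCohomology.map (MonoidHom.id (↥𝓛.L ≃ₐ[ℚ] ↥𝓛.L)) (Dev.classToSRep ↥𝓛.L (S : Set Nat.Primes)) 2
        (groupCohomology.map (MonoidHom.id (↥𝓛.L ≃ₐ[ℚ] ↥𝓛.L))
          (Dev.ideleSingleRep ↥𝓛.L q.1 ≫ Dev.ideleToClassRep ↥𝓛.L) 2 ξ)) := by
  obtain ⟨w, rfl⟩ := (Call.toGC (Dev.jqRep ↥𝓛.L q.1) 2).surjective ξ
  obtain ⟨z, hz, rfl⟩ := (Call (Dev.jqRep ↥𝓛.L q.1)).exists_rep w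
  simp only [← Call.toGC_map, Cpx.Hom.mapH_cl]
  congr 1
  refine Cpx.cl_congr _ ?_ _
  funext γ
  simp only [Call.map_apply]
  exact PT.jcB_singleJ 𝓛 q _

/-- a primitive `p`-th root of unity persists in a bigger level -/
theorem exists_primitiveRoot_of_le {n : ℕ} {L L' : FieldQ} (hle : L ≤ L')
    (h : ∃ ζ : ↥L, IsPrimitiveRoot ζ n) : ∃ ζ : ↥L', IsPrimitiveRoot ζ n := by
  obtain ⟨ζ, hζ⟩ := h
  exact ⟨IntermediateField.inclusion hle ζ,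
    hζ.map_of_injective (f := (IntermediateField.inclusion hle).toRingHom)
      (IntermediateField.inclusion hle).toRingHom.injective⟩

/-- **limit transfer of (K9-III)**: a `p`-torsion class `ξ ∈ H²(Aut L, J_q(L))` at a level `L ∋ ζ_p` of `ℚ_S` whose
image in `H²(Aut L, C(L))` is nonzero gives a class of `H²(G_S, J_S)` supported at `q`, with `p`-torsion
`q`-component and nonzero image in `H²(G_S, CSfull S)`. -/
theorem exists_class_of_level {p : ℕ} [hp : Fact p.Prime] (hp2 : p ≠ 2) (hpS : pPrime p ∈ S) (q : S)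
    (𝓛₀ : ClsLevel S (MonoidHom.id GQ)) (hζ : ∃ ζ : ↥𝓛₀.L, IsPrimitiveRoot ζ p)
    (ξ : groupCohomology (Dev.jqRep ↥𝓛₀.L q.1) 2) (hξ : p • ξ = 0)
    (hnz : groupCohomology.map (MonoidHom.id (↥𝓛₀.L ≃ₐ[ℚ] ↥𝓛₀.L))
      (Dev.ideleSingleRep ↥𝓛₀.L q.1 ≫ Dev.ideleToClassRep ↥𝓛₀.L) 2 ξ ≠ 0) :
    ∃ z : Hsm (basisS S) (JSrep S) 2,
      (∀ q' : S, q' ≠ q → (PT.locJ S q').mapH 2 z = 0) ∧ p • (PT.locJ S q).mapH 2 z = 0 ∧
        (Csm.map (basisS S) (PT.πJ S)).mapH 2 z ≠ 0 := by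
  have hS : S.Nonempty := ⟨_, hpS⟩
  have h𝒲 := clsBasis_id S
  -- the class at the level
  set ξ' := groupCohomology.map 𝓛₀.Gam.subtype
    (𝟙 (Rep.res 𝓛₀.Gam.subtype (Dev.jqRep ↥𝓛₀.L q.1))) 2 ξ with hξ'
  set x₀ := groupCohomology.map (A := Rep.res 𝓛₀.Gam.subtype (Dev.jqRep ↥𝓛₀.L q.1)) (B := 𝓛₀.modJ)
    (MonoidHom.id ↥𝓛₀.Gam) (𝓛₀.singleJ q) 2 ξ' with hx₀
  set c₀ := groupCohomology.map (A := 𝓛₀.modJ) (B := 𝓛₀.modB) (MonoidHom.id ↥𝓛₀.Gam) 𝓛₀.jcB 2 x₀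
    with hc₀
  have hpx₀ : p • x₀ = 0 := by
    rw [hx₀, ← map_nsmul, hξ', ← map_nsmul, hξ, map_zero, map_zero]
  have hpc₀ : p • c₀ = 0 := by
    rw [hc₀, ← map_nsmul, hpx₀, map_zero]
  have hpz : p • (𝓛₀.lvlJ h𝒲).inflH 2 x₀ = 0 := by
    rw [← map_nsmul]
    exact (congrArg ((𝓛₀.lvlJ h𝒲).inflH 2) hpx₀).trans (map_zero _)
  refine ⟨(𝓛₀.lvlJ h𝒲).inflH 2 x₀, fun q' hq' => PT.locJ_inflH_single_eq_zero S 𝓛₀ hq' ξ', ?_, ?_⟩
  · rw [← map_nsmul]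
    exact (congrArg ((PT.locJ S q).mapH 2) hpz).trans (map_zero _)
  · intro h0
    -- `π_* z` is the inflation of `c₀`
    have hπ : (Csm.map (basisS S) (PT.πJ S)).mapH 2 ((𝓛₀.lvlJ h𝒲).inflH 2 x₀) =
        (𝓛₀.lvl hS h𝒲).inflH 2 c₀ := by
      refine Eq.trans ?_ ((𝓛₀.jcOver hS h𝒲).mapG_inflH (unrBasis S).isCont_id x₀)
      exact Cpx.Hom.mapH_congr (fun _ _ => rfl) 2 _
    rw [hπ] at h0
    obtain ⟨𝓛', hle, hinf⟩ := (clsSystem hS h𝒲).exists_inf_eq_zero 𝓛₀ c₀ h0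
    have hle' : 𝓛₀.L ≤ 𝓛'.L := hle
    -- `c₀ = 0` by `p`-primary injectivity of inflation
    have hfin : Finite ↥𝓛'.Gam := Dev.finite_gam 𝓛'
    have hfin' : Finite ↥(𝓛₀.lvlHom hS 𝓛' hle' h𝒲).ρ.ker :=
      inferInstanceAs (Finite ↥((𝓛₀.resGam 𝓛' hle').ker))
    have hP := Dev.pClassModule_modB (Places.globalCyclicLayers hp2)
      (Dev.topClassStatement_of_fundClass (Recip.fundClassStatement hp2) hS) hS 𝓛'
      (exists_primitiveRoot_of_le hle' hζ)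
    have hc₀0 : c₀ = 0 := by
      refine Lvl.Hom.inf_two_injective_pPrimary (𝓛₀.lvlHom hS 𝓛' hle' h𝒲) p ?_ c₀ 1
        (by rw [pow_one]; exact hpc₀) hinf
      exact hP.h1 _ _ Subtype.val_injective
    -- but `c₀ ≠ 0`
    apply hnz
    have h1 := PT.map_jcB_singleJ 𝓛₀ q ξ
    rw [← hξ', ← hx₀, ← hc₀, hc₀0] at h1
    have h2 := PT.resGam_injective 𝓛₀ (Dev.classRepS ↥𝓛₀.L (S : Set Nat.Primes)) 2
      (h1.symm.trans (map_zero _).symm)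
    have : NumberField ↥𝓛₀.L := Dev.numberField_of_isUnramifiedOutside 𝓛₀.unr
    have : IsGalois ℚ ↥𝓛₀.L := IsGalois.mk
    have hinj := Dev.classToS_H2_injective ↥𝓛₀.L (S : Set Nat.Primes) hS
      (fun q' hq' κ => unramAt_localField S 𝓛₀.L 𝓛₀.unr q' hq' κ)
    exact hinj (h2.trans (map_zero _).symm)

/-- a level of `ℚ_S` containing a primitive `p^(n+1)`-th root of unity -/
theorem exists_level_primitiveRoot {p : ℕ} [hp : Fact p.Prime] (hpS : pPrime p ∈ S) (n : ℕ) :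
    ∃ (𝓛₀ : ClsLevel S (MonoidHom.id GQ)) (ζ : ↥𝓛₀.L), IsPrimitiveRoot ζ (p ^ (n + 1)) := by
  have : NeZero (p ^ (n + 1)) := ⟨pow_ne_zero _ hp.out.ne_zero⟩
  obtain ⟨ζ, hζ⟩ := HasEnoughRootsOfUnity.exists_primitiveRoot Qbar (p ^ (n + 1))
  obtain ⟨F, hF, hN, hmem⟩ := exists_level_mem_of_pow_eq_one S hpS (n + 1) hζ.pow_eq_one
  have := hN
  refine ⟨ClsLevel.ofNormal F hF, ⟨ζ, hmem⟩, ?_⟩
  exact IsPrimitiveRoot.of_map_of_injective (f := algebraMap ↥F Qbar) (by exact hζ)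
    (algebraMap ↥F Qbar).injective

/-- a primitive `p^(n+1)`-th root of unity gives a primitive `p`-th root of unity -/
theorem exists_primitiveRoot_prime {p : ℕ} [hp : Fact p.Prime] {L : Type*} [CommRing L] [IsDomain L] {n : ℕ}
    {ζ : L} (hζ : IsPrimitiveRoot ζ (p ^ (n + 1))) : ∃ ζ' : L, IsPrimitiveRoot ζ' p :=
  ⟨ζ ^ (p ^ n), hζ.pow (pow_pos hp.out.pos _) (pow_succ p n)⟩

/-- **(K9-III) in the limit, one class per `q ∈ S`** -/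
theorem exists_class {p : ℕ} [hp : Fact p.Prime] (hp2 : p ≠ 2) (hpS : pPrime p ∈ S) (q : S) :
    ∃ z : Hsm (basisS S) (JSrep S) 2,
      (∀ q' : S, q' ≠ q → (PT.locJ S q').mapH 2 z = 0) ∧ p • (PT.locJ S q).mapH 2 z = 0 ∧
        (Csm.map (basisS S) (PT.πJ S)).mapH 2 z ≠ 0 := by
  by_cases hqp : (q.1 : ℕ) = p
  · -- wild case: `m = 1`, `y = 1 + p`
    obtain ⟨lam, hlam⟩ := Places.exists_lam hp2 1
    obtain ⟨𝓛₀, ζ, hζ⟩ := exists_level_primitiveRoot (S := S) hpS 1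
    have : NumberField ↥𝓛₀.L := Dev.numberField_of_isUnramifiedOutside 𝓛₀.unr
    have : IsGalois ℚ ↥𝓛₀.L := IsGalois.mk
    obtain ⟨h1, h2⟩ := LocalH.k9All_wild lam hζ hlam hp2 q.1 hqp
    exact exists_class_of_level hp2 hpS q 𝓛₀ (exists_primitiveRoot_prime hζ) _ h1 h2
  · -- tame case: `m = v_p(q^(p-1) - 1)`, `y = q`
    obtain ⟨lam, hlam⟩ := Places.exists_lam hp2 (padicValNat p ((q.1 : ℕ) ^ (p - 1) - 1))
    obtain ⟨𝓛₀, ζ, hζ⟩ := exists_level_primitiveRoot (S := S) hpS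
      (padicValNat p ((q.1 : ℕ) ^ (p - 1) - 1))
    have : NumberField ↥𝓛₀.L := Dev.numberField_of_isUnramifiedOutside 𝓛₀.unr
    have : IsGalois ℚ ↥𝓛₀.L := IsGalois.mk
    obtain ⟨h1, h2⟩ := LocalH.k9All_tame lam hζ hlam hp2 q.1 hqp rfl
    exact exists_class_of_level hp2 hpS q 𝓛₀ (exists_primitiveRoot_prime hζ) _ h1 h2

/-- **(III)**: every `w ∈ H²(G_q, ℚ̄_qˣ)[p]` is the `q`-component of a class of `H²(G_S, J_S)` supported at `q`, whose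
image in `H²(G_S, CSfull S)` is nonzero if `w ≠ 0` (`p` odd, `p ∈ S`). -/
theorem hIII {p : ℕ} [hp : Fact p.Prime] (hp2 : p ≠ 2) (S : Finset Nat.Primes) (hpS : pPrime p ∈ S) :
    ∀ (q : S) (w : Hsm (basisLoc q.1) (Yloc q.1) 2), p • w = 0 →
      ∃ z : Hsm (basisS S) (JSrep S) 2, PT.IsIncl S q w z ∧
        (w ≠ 0 → (Csm.map (basisS S) (PT.πJ S)).mapH 2 z ≠ 0) :=
  PT.hIII_of_one S fun q => exists_class hp2 hpS q

end PT

end Fermat.Agent.S55lib
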