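/-
S55lib / GlobDual / Scalars  (helper7).

Restriction of scalars to `ℤ` does not change smooth cohomology: for `A : Rep k G`,
`Sm.intH1 : Sm.H1 r 𝓛 (toIntRep A) ≃+ Sm.H1 r 𝓛 A`, `Sm.intH2 : Sm.H2 r 𝓛 (toIntRep A) ≃+ Sm.H2 r 𝓛 A`
(the underlying cocycles and coboundaries are the same functions), compatible with restriction.
-/
import Fermat.Agent.S55lib.Iface.DualTwist
import Fermat.Agent.S55lib.Iface.Res

set_option autoImplicit false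

noncomputable section

namespace Fermat.Agent.S55lib

open groupCohomology

namespace Sm

variable {G : Type} [Group G] (r : G →* GQ) (𝓛 : LevelClass) {k : Type} [CommRing k]
  (A : Rep.{0} k G)

lemma mem_Z1_toIntRep_iff (x : G → A) : x ∈ Z1 r 𝓛 (toIntRep A) ↔ x ∈ Z1 r 𝓛 A := by
  rw [mem_Z1_iff, mem_Z1_iff, mem_cocycles₁_iff, mem_cocycles₁_iff]
  rfl

lemma mem_B1_toIntRep_iff (x : G → A) : x ∈ B1 r 𝓛 (toIntRep A) ↔ x ∈ B1 r 𝓛 A := by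
  constructor
  · rintro ⟨⟨a, ha⟩, h2⟩
    exact ⟨⟨a, ha⟩, h2⟩
  · rintro ⟨⟨a, ha⟩, h2⟩
    exact ⟨⟨a, ha⟩, h2⟩

lemma mem_Z2_toIntRep_iff (x : G × G → A) : x ∈ Z2 r 𝓛 (toIntRep A) ↔ x ∈ Z2 r 𝓛 A := by
  rw [mem_Z2_iff, mem_Z2_iff, mem_cocycles₂_iff, mem_cocycles₂_iff]
  rfl

lemma mem_B2_toIntRep_iff (x : G × G → A) : x ∈ B2 r 𝓛 (toIntRep A) ↔ x ∈ B2 r 𝓛 A := by
  rw [mem_B2_iff, mem_B2_iff]
  constructor
  · rintro ⟨y, hy, rfl⟩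
    exact ⟨y, hy, by funext ⟨g, h⟩; rw [d₁₂_hom_apply, d₁₂_hom_apply]; rfl⟩
  · rintro ⟨y, hy, rfl⟩
    exact ⟨y, hy, by funext ⟨g, h⟩; rw [d₁₂_hom_apply, d₁₂_hom_apply]; rfl⟩

/-- the identity on 1-cocycles -/
def intZ1 : ↥(Z1 r 𝓛 (toIntRep A)) →+ ↥(Z1 r 𝓛 A) where
  toFun x := ⟨x.1, (mem_Z1_toIntRep_iff r 𝓛 A x.1).1 x.2⟩
  map_zero' := rfl
  map_add' _ _ := rfl

/-- the identity on 2-cocycles -/
def intZ2 : ↥(Z2 r 𝓛 (toIntRep A)) →+ ↥(Z2 r 𝓛 A) where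
  toFun x := ⟨x.1, (mem_Z2_toIntRep_iff r 𝓛 A x.1).1 x.2⟩
  map_zero' := rfl
  map_add' _ _ := rfl

/-- comparison of `H¹` -/
def intH1 : H1 r 𝓛 (toIntRep A) →+ H1 r 𝓛 A :=
  (Submodule.liftQ _
    (((H1π r 𝓛 A).toAddMonoidHom.comp (intZ1 r 𝓛 A)).toIntLinearMap) (by
      rintro ⟨x, hx⟩ hx'
      rw [LinearMap.mem_ker]
      show H1π r 𝓛 A ⟨x, _⟩ = 0
      rw [Submodule.mkQ_apply, Submodule.Quotient.mk_eq_zero]
      exact (mem_B1_toIntRep_iff r 𝓛 A x).1 hx')).toAddMonoidHom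

/-- comparison of `H²` -/
def intH2 : H2 r 𝓛 (toIntRep A) →+ H2 r 𝓛 A :=
  (Submodule.liftQ _
    (((H2π r 𝓛 A).toAddMonoidHom.comp (intZ2 r 𝓛 A)).toIntLinearMap) (by
      rintro ⟨x, hx⟩ hx'
      rw [LinearMap.mem_ker]
      show H2π r 𝓛 A ⟨x, _⟩ = 0
      rw [Submodule.mkQ_apply, Submodule.Quotient.mk_eq_zero]
      exact (mem_B2_toIntRep_iff r 𝓛 A x).1 hx')).toAddMonoidHom

variable {r 𝓛 A}

lemma intH1_mk (x : ↥(Z1 r 𝓛 (toIntRep A))) :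
    intH1 r 𝓛 A (H1π r 𝓛 (toIntRep A) x) = H1π r 𝓛 A (intZ1 r 𝓛 A x) := rfl

lemma intH2_mk (x : ↥(Z2 r 𝓛 (toIntRep A))) :
    intH2 r 𝓛 A (H2π r 𝓛 (toIntRep A) x) = H2π r 𝓛 A (intZ2 r 𝓛 A x) := rfl

theorem intH1_bijective : Function.Bijective (intH1 r 𝓛 A) := by
  constructor
  · rw [injective_iff_map_eq_zero]
    intro y hy
    obtain ⟨x, rfl⟩ := Submodule.mkQ_surjective _ y
    rw [intH1_mk, Submodule.mkQ_apply, Submodule.Quotient.mk_eq_zero] at hy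
    rw [Submodule.mkQ_apply, Submodule.Quotient.mk_eq_zero]
    exact (mem_B1_toIntRep_iff r 𝓛 A x.1).2 hy
  · intro y
    obtain ⟨x, rfl⟩ := Submodule.mkQ_surjective _ y
    exact ⟨H1π r 𝓛 (toIntRep A) ⟨x.1, (mem_Z1_toIntRep_iff r 𝓛 A x.1).2 x.2⟩, rfl⟩

theorem intH2_bijective : Function.Bijective (intH2 r 𝓛 A) := by
  constructor
  · rw [injective_iff_map_eq_zero]
    intro y hy
    obtain ⟨x, rfl⟩ := Submodule.mkQ_surjective _ y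
    rw [intH2_mk, Submodule.mkQ_apply, Submodule.Quotient.mk_eq_zero] at hy
    rw [Submodule.mkQ_apply, Submodule.Quotient.mk_eq_zero]
    exact (mem_B2_toIntRep_iff r 𝓛 A x.1).2 hy
  · intro y
    obtain ⟨x, rfl⟩ := Submodule.mkQ_surjective _ y
    exact ⟨H2π r 𝓛 (toIntRep A) ⟨x.1, (mem_Z2_toIntRep_iff r 𝓛 A x.1).2 x.2⟩, rfl⟩

/-! ### Compatibility with restriction -/

variable {G' : Type} [Group G'] (f : G' →* G) {r' : G' →* GQ} (hf : ∀ g, r (f g) = r' g)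
  {𝓛' : LevelClass} (h𝓛 : ∀ F, 𝓛.P F → 𝓛'.P F)

lemma intH1_resH1 (x : H1 r 𝓛 (toIntRep A)) :
    intH1 r' 𝓛' (Rep.res f A) (resH1 f hf h𝓛 (toIntRep A) x) =
      resH1 f hf h𝓛 A (intH1 r 𝓛 A x) := by
  obtain ⟨x0, rfl⟩ := Submodule.mkQ_surjective _ x
  rfl

lemma intH2_resH2 (x : H2 r 𝓛 (toIntRep A)) :
    intH2 r' 𝓛' (Rep.res f A) (resH2 f hf h𝓛 (toIntRep A) x) =
      resH2 f hf h𝓛 A (intH2 r 𝓛 A x) := by
  obtain ⟨x0, rfl⟩ := Submodule.mkQ_surjective _ x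
  rfl

end Sm

end Fermat.Agent.S55lib
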